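import Fermat.Agent.LT.General.Classes.Norm
import Fermat.Agent.LT.Descent.Classes.Decomp

set_option autoImplicit false

/-!
# The twisted classes with norm of odd valuation, general setup
-/

noncomputable section

open NumberField IsDedekindDomain
open scoped MatrixGroups

namespace FermatAgent.LTG.Classes

open Matrix
open FermatAgent.LT.TF (nm nm_conj IsTorus)
open FermatAgent.LT.Classes (pMap pMap_mk pGal pGal_mk ratioGL ratioGL_mul_scalar pRatio pRatio_mk
  IsReg lift₂ mk_lift₂ torus twStab mem_twStab OddVal oddVal_mk isSquare_det_mul_scalar cycMat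
  compMat mul_cycMat NonScalar exists_cyclic nonScalar_of_disc exists_eq_of_commute
  commute_of_commute det_poly exists_conj_compMat exists_conj_of_trace_det exists_anticomm
  coe_mul_scalar mk_eq_mk_iff_smul isReg_mk nonScalar_of_isReg centralizer_mul_scalar torus_mk
  mem_torus_mk self_mem_torus torus_comm torus_le_centralizer centralizer_cases)

open FermatAgent.LT.Classes (oddSetoid Cls Cls.rep Cls.oddVal oddVal_conj Cls.isConj_rep Cls.eq_of_isConj)

variable {S : Setup} {σ : S.F ≃+* S.F}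

/-- The classes which are norms. -/
def NCls (σ : S.F ≃+* S.F) (v : HeightOneSpectrum (𝓞 S.K)) : Type _ :=
  {c : Cls v // ∃ δ, nm (pGal σ) δ = pIncl S c.rep}

/-- A twisted representative. -/
def NCls.delta {v : HeightOneSpectrum (𝓞 S.K)} (c : NCls σ v) : PGL(2, S.F) := c.2.choose

theorem NCls.nm_delta {v : HeightOneSpectrum (𝓞 S.K)} (c : NCls σ v) :
    nm (pGal σ) c.delta = pIncl S c.1.rep := c.2.choose_spec

theorem oddVal_twisted_conj (hσ : S.IsGalGen σ) {w : HeightOneSpectrum (𝓞 S.F)}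
    (η δ : PGL(2, S.F)) :
    OddVal w (nm (pGal σ) (η * δ * (pGal σ η)⁻¹)) ↔ OddVal w (nm (pGal σ) δ) := by
  have e := nm_conj (pGal_three hσ) η⁻¹ δ
  rw [inv_inv, map_inv] at e
  rw [e, oddVal_conj]

theorem exists_twistedEquiv (hσ : S.IsGalGen σ) (w : HeightOneSpectrum (𝓞 S.F)) :
    ∃ e : (Σ c : NCls σ (S.underK w), PGL(2, S.F) ⧸ twStab (pGal σ) c.delta) ≃
        {γ : PGL(2, S.F) // OddVal w (nm (pGal σ) γ)},
      ∀ (c : NCls σ (S.underK w)) (η : PGL(2, S.F)),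
        (e ⟨c, (η : PGL(2, S.F) ⧸ twStab (pGal σ) c.delta)⟩).1 =
          η * c.delta * (pGal σ η)⁻¹ := by
  have hodd : ∀ c : NCls σ (S.underK w), OddVal w (nm (pGal σ) c.delta) := fun c =>
    (oddVal_of_nm hσ c.nm_delta).mpr c.1.oddVal
  let f : (Σ c : NCls σ (S.underK w), PGL(2, S.F) ⧸ twStab (pGal σ) c.delta) →
      {γ : PGL(2, S.F) // OddVal w (nm (pGal σ) γ)} :=
    fun x => Quotient.liftOn' x.2
      (fun η => ⟨η * x.1.delta * (pGal σ η)⁻¹,
        (oddVal_twisted_conj hσ η _).mpr (hodd x.1)⟩) (fun a b hab => by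
        have h := mem_twStab.mp (QuotientGroup.leftRel_apply.mp hab)
        refine Subtype.ext ?_
        show a * x.1.delta * (pGal σ a)⁻¹ = b * x.1.delta * (pGal σ b)⁻¹
        conv_rhs => rw [← h]
        rw [map_mul, map_inv]
        group
        )
  have hf : ∀ (c : NCls σ (S.underK w)) (η : PGL(2, S.F)),
      (f ⟨c, (η : PGL(2, S.F) ⧸ twStab (pGal σ) c.delta)⟩).1 =
        η * c.delta * (pGal σ η)⁻¹ :=
    fun _ _ => rfl
  refine ⟨Equiv.ofBijective f ⟨?_, ?_⟩, hf⟩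
  · rintro ⟨c, x⟩ ⟨c', x'⟩ h
    induction x using QuotientGroup.induction_on with | H a =>
    induction x' using QuotientGroup.induction_on with | H b =>
    replace h : a * c.delta * (pGal σ a)⁻¹ = b * c'.delta * (pGal σ b)⁻¹ := congrArg Subtype.val h
    obtain rfl : c = c' := by
      refine Subtype.ext (Cls.eq_of_isConj (isConj_of_isConj_pIncl hσ (isReg_of_oddVal c.1.oddVal)
        (isConj_iff.mpr ⟨b⁻¹ * a, ?_⟩)))
      have e : c'.delta = (a⁻¹ * b)⁻¹ * c.delta * pGal σ (a⁻¹ * b) := by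
        rw [map_mul, map_inv]
        calc c'.delta = b⁻¹ * (b * c'.delta * (pGal σ b)⁻¹) * pGal σ b := by group
          _ = _ := by rw [← h]; group
      rw [← c'.nm_delta, e, nm_conj (pGal_three hσ), c.nm_delta]
      group
    refine congrArg (Sigma.mk c) (QuotientGroup.eq.mpr (mem_twStab.mpr ?_))
    rw [map_mul, map_inv]
    calc (a⁻¹ * b)⁻¹ * c.delta * ((pGal σ a)⁻¹ * pGal σ b)
        = b⁻¹ * (a * c.delta * (pGal σ a)⁻¹) * pGal σ b := by group
      _ = c.delta := by rw [h]; group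
  · rintro ⟨γ, hγ⟩
    obtain ⟨t, η, ht, hn⟩ := exists_norm_class hσ hγ
    obtain ⟨a, ha⟩ := isConj_iff.mp (Cls.isConj_rep ht)
    set δ' := (pIncl S a⁻¹)⁻¹ * (η⁻¹ * γ * pGal σ η) * pGal σ (pIncl S a⁻¹) with hδ'
    have hn' : nm (pGal σ) δ' = pIncl S (Cls.rep (Quotient.mk (oddSetoid _) ⟨t, ht⟩)) := by
      rw [hδ', nm_conj (pGal_three hσ), hn, ← map_inv, ← map_mul, ← map_mul, inv_inv]
      exact congrArg _ ha
    let c : NCls σ (S.underK w) := ⟨Quotient.mk (oddSetoid _) ⟨t, ht⟩, δ', hn'⟩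
    obtain ⟨z, -, hz⟩ := exists_twisted_conj hσ (isReg_of_oddVal c.1.oddVal) c.nm_delta hn'
    refine ⟨⟨c, ((η * pIncl S a⁻¹ * z⁻¹ : PGL(2, S.F)) : PGL(2, S.F) ⧸ _)⟩, Subtype.ext ?_⟩
    show η * pIncl S a⁻¹ * z⁻¹ * c.delta * (pGal σ (η * pIncl S a⁻¹ * z⁻¹))⁻¹ = γ
    rw [map_mul, map_mul, map_inv (pGal σ) z]
    calc η * pIncl S a⁻¹ * z⁻¹ * c.delta *
        (pGal σ η * pGal σ (pIncl S a⁻¹) * (pGal σ z)⁻¹)⁻¹
        = η * pIncl S a⁻¹ * (z⁻¹ * c.delta * pGal σ z) * (pGal σ (pIncl S a⁻¹))⁻¹ *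
            (pGal σ η)⁻¹ := by group
      _ = γ := by rw [← hz, hδ']; group

end FermatAgent.LTG.Classes

end
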