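import Fermat.Agent.LT.General.Geom.Local.Places
import Fermat.Agent.LT.Descent.Classes.Matrix2
import Fermat.Agent.LT.Descent.Classes.Galois

set_option autoImplicit false

/-!
# The classes of a general setup: inclusion and the generator of `Gal(F/K)`
-/

noncomputable section

open NumberField IsDedekindDomain
open scoped MatrixGroups

namespace FermatAgent.LTG.Classes

open Matrix
open FermatAgent.LT.TF (nm nm_conj IsTorus)
open FermatAgent.LT.Classes (pMap pMap_mk pGal pGal_mk ratioGL ratioGL_mul_scalar pRatio pRatio_mk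
  IsReg lift₂ mk_lift₂ torus twStab mem_twStab OddVal oddVal_mk isSquare_det_mul_scalar cycMat
  compMat mul_cycMat NonScalar exists_cyclic nonScalar_of_disc exists_eq_of_commute
  commute_of_commute det_poly exists_conj_compMat exists_conj_of_trace_det exists_anticomm
  coe_mul_scalar mk_eq_mk_iff_smul isReg_mk nonScalar_of_isReg centralizer_mul_scalar torus_mk
  mem_torus_mk self_mem_torus torus_comm torus_le_centralizer centralizer_cases)
open FermatAgent.LT (quaternionSubgroup)

local notation "Qb" => AlgebraicClosure ℚ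
local notation "GQ" => AlgebraicClosure ℚ ≃ₐ[ℚ] AlgebraicClosure ℚ

attribute [local instance] FermatAgent.RT.isGalois_algClosureRat

/-- The inclusion of `PGL₂(K)` in `PGL₂(F)`. -/
def pIncl (S : Setup) : PGL(2, S.K) →* PGL(2, S.F) := pMap S.inclKF.toRingHom

variable {S : Setup} {σ : S.F ≃+* S.F}

theorem exists_extension (hσ : S.IsGalGen σ) :
    ∃ s : GQ, s ∈ S.K.fixingSubgroup ∧ S.ρ s ∉ quaternionSubgroup ∧
      ∀ x : S.F, s (x : Qb) = (σ x : Qb) := by
  let e : S.F ≃ₐ[ℚ] S.F := AlgEquiv.ofRingEquiv (f := σ) fun q => by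
    simp [eq_ratCast, map_ratCast]
  refine ⟨e.liftNormal Qb, ?_, ?_, fun x => e.liftNormal_commutes Qb x⟩
  · rintro ⟨y, hy⟩
    have h := e.liftNormal_commutes Qb (S.inclKF ⟨y, hy⟩)
    rw [show e (S.inclKF ⟨y, hy⟩) = S.inclKF ⟨y, hy⟩ from hσ.2 _] at h
    exact h
  · intro hq
    refine hσ.1 (RingEquiv.ext fun x => Subtype.ext ?_)
    have h := e.liftNormal_commutes Qb x
    exact h.symm.trans (S.apply_eq_self_of_q8 hq x.2)

theorem gal_three (hσ : S.IsGalGen σ) (x : S.F) : σ (σ (σ x)) = x := hσ.cube x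

theorem exists_inclKF_eq (hσ : S.IsGalGen σ) {x : S.F} (hx : σ x = x) :
    ∃ y : S.K, S.inclKF y = x :=
  hσ.exists_of_fixed hx

theorem gal_ne (hσ : S.IsGalGen σ) : ∃ x : S.F, σ x ≠ x := by
  by_contra! h
  exact hσ.1 (RingEquiv.ext h)

-- many case distinctions
/-- Independence of `1`, `σ`, `σ²`. -/
theorem eq_zero_of_forall (hσ : S.IsGalGen σ) {a b c : Qb}
    (h : ∀ θ : S.F, a * (θ : Qb) + b * (σ θ : Qb) + c * (σ (σ θ) : Qb) = 0) :
    a = 0 ∧ b = 0 ∧ c = 0 := by
  obtain ⟨x, hx⟩ := gal_ne hσ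
  have h3 := gal_three hσ
  have hx2 : σ (σ x) ≠ x := fun h' => hx (by conv_lhs => rw [← h', h3])
  have h12 : σ x ≠ σ (σ x) := fun h' => hx (σ.injective h').symm
  let χ : Fin 3 → (S.F →* Qb) :=
    ![S.F.val.toRingHom.toMonoidHom, (S.F.val.toRingHom.comp σ.toRingHom).toMonoidHom,
      (S.F.val.toRingHom.comp (σ.toRingHom.comp σ.toRingHom)).toMonoidHom]
  have hχ : Function.Injective χ := by
    intro i j hij
    have e := DFunLike.congr_fun hij x
    fin_cases i <;> fin_cases j <;>
      first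
      | rfl
      | (exfalso; simp [χ] at e;
         first | exact hx e.symm | exact hx e | exact hx2 e.symm | exact hx2 e)
  have hli := Fintype.linearIndependent_iff.mp
    ((linearIndependent_monoidHom S.F Qb).comp χ hχ) ![a, b, c] (funext fun θ => by
      simpa [χ, Fin.sum_univ_three, add_assoc] using h θ)
  exact ⟨hli 0, hli 1, hli 2⟩

/-- Two combinations of `1, σ, σ²` with nonzero leading coefficient do not vanish at a common point. -/
theorem exists_apply_ne_zero (hσ : S.IsGalGen σ) (b c b' c' : Qb) :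
    ∃ θ : S.F, (θ : Qb) + b * (σ θ : Qb) + c * (σ (σ θ) : Qb) ≠ 0 ∧
      (θ : Qb) + b' * (σ θ : Qb) + c' * (σ (σ θ) : Qb) ≠ 0 := by
  have key : ∀ b c : Qb, ∃ θ : S.F, (θ : Qb) + b * (σ θ : Qb) + c * (σ (σ θ) : Qb) ≠ 0 := by
    intro b c
    by_contra! h
    exact one_ne_zero (eq_zero_of_forall hσ (a := 1) (fun θ => by rw [one_mul]; exact h θ)).1
  by_contra! h
  obtain ⟨p, hp⟩ := key b c
  obtain ⟨q, hq⟩ := key b' c'
  have hp' := h p hp
  have hq' : (q : Qb) + b * (σ q : Qb) + c * (σ (σ q) : Qb) = 0 := by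
    by_contra h0
    exact hq (h q h0)
  have hsum : ((p + q : S.F) : Qb) + b * (σ (p + q) : Qb) + c * (σ (σ (p + q)) : Qb) ≠ 0 := by
    simp only [map_add, IntermediateField.coe_add]
    intro h0
    exact hp (by linear_combination h0 - hq')
  have := h (p + q) hsum
  simp only [map_add, IntermediateField.coe_add] at this
  exact hq (by linear_combination this - hp')

/-- Hilbert 90. -/
theorem exists_eq_div_gal (hσ : S.IsGalGen σ) {μ : S.F} (h : μ * σ μ * σ (σ μ) = 1) :
    ∃ ν : S.F, ν ≠ 0 ∧ μ * σ ν = ν := by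
  obtain ⟨θ, hθ, -⟩ := exists_apply_ne_zero hσ (μ : Qb) ((μ * σ μ : S.F) : Qb) 0 0
  refine ⟨θ + μ * σ θ + μ * σ μ * σ (σ θ), fun h0 => hθ ?_, ?_⟩
  · simpa using congrArg Subtype.val h0
  · rw [map_add, map_add, map_mul, map_mul, map_mul, gal_three hσ θ]
    linear_combination θ * h

end FermatAgent.LTG.Classes

end
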