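import Fermat.Agent.LT.General.Classes.Galois
import Fermat.Agent.LT.Descent.Classes.HasseCriterion

set_option autoImplicit false

/-!
# When an element of an extension of `K` is a norm from `F`, general setup

By the Hasse norm theorem `u` is a norm from `E F` when at every place over `m` it is locally a
cube or the place splits, and at the other places its valuation is divisible by three or the place
splits.
-/

noncomputable section

open NumberField IsDedekindDomain
open scoped Pointwise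

namespace FermatAgent.LTG.Classes

open FermatAgent.Duality FermatAgent.Duality.Global FermatAgent.LT.GL2F3
open FermatAgent.LT (quaternionSubgroup)
open FermatAgent.LT.Classes (tclass tclass_mul tclass_eq_zero)

local notation "Qb" => AlgebraicClosure ℚ
local notation "GQ" => AlgebraicClosure ℚ ≃ₐ[ℚ] AlgebraicClosure ℚ

attribute [local instance] FermatAgent.RT.isGalois_algClosureRat numberField_of_finite

local instance : Fact (Nat.Prime 3) := ⟨Nat.prime_three⟩

theorem containsMuP_of_le {S : Setup} {E : IntermediateField ℚ Qb} (hKE : S.K ≤ E) :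
    ContainsMuP 3 E := by
  obtain ⟨ζ, hζK, h3, h1, -⟩ := S.exists_three_root
  intro g hg
  have hζ : IsPrimitiveRoot ζ 3 := IsPrimitiveRoot.iff_orderOf.mpr (orderOf_eq_prime h3 h1)
  exact FermatAgent.TW.cycloChar_eq_one_of_apply hζ (hg ⟨ζ, hKE hζK⟩)

variable {S : Setup} {E : IntermediateField ℚ Qb} (hKE : S.K ≤ E)

include hKE in
theorem tdet_of_fix {g : GQ} (hg : g ∈ E.fixingSubgroup) :
    tdet (toTup (S.ρ g : Matrix (Fin 2) (Fin 2) (ZMod 3))) = 1 := by
  rw [tdet_toTup, S.det_eq_one_of_fix (IntermediateField.fixingSubgroup_antitone hKE hg)]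

/-- The character of `G_E` cutting out `E F`. -/
def cubicChar : E.fixingSubgroup →* Multiplicative (ZMod 3) where
  toFun g := Multiplicative.ofAdd (tclass (toTup (S.ρ g : Matrix (Fin 2) (Fin 2) (ZMod 3))))
  map_one' := by
    rw [OneMemClass.coe_one, map_one, Units.val_one, toTup_one]
    rfl
  map_mul' g h := by
    rw [Subgroup.coe_mul, map_mul, Units.val_mul, toTup_mul,
      tclass_mul _ (tdet_of_fix hKE g.2) _ (tdet_of_fix hKE h.2), ofAdd_add]

theorem cubicChar_eq_one_iff (g : E.fixingSubgroup) :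
    cubicChar hKE g = 1 ↔ S.ρ g ∈ quaternionSubgroup := by
  rw [cubicChar, MonoidHom.coe_mk, OneHom.coe_mk, ofAdd_eq_one]
  constructor
  · intro h
    exact (tq8_toTup _).1 (tclass_eq_zero _ h)
  · intro h
    rw [tclass, if_pos ((tq8_toTup _).2 h)]

include hKE in
theorem exists_kummerExt_eq_sup [FiniteDimensional ℚ E] :
    ∃ a : Eˣ, kummerExt 3 a = E ⊔ S.F := by
  have : FiniteDimensional ℚ S.F := S.finiteDimensional_fixedField _
  have := IntermediateField.finiteDimensional_sup E S.F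
  refine exists_eq_kummerExt (containsMuP_of_le hKE) (cubicChar hKE) (L := E ⊔ S.F) fun g => ?_
  rw [IntermediateField.fixingSubgroup_sup, Subgroup.mem_inf, Setup.fixingSubgroup_F]
  exact ⟨fun h => ⟨h.1, (cubicChar_eq_one_iff hKE ⟨g, h.1⟩).2 h.2⟩,
    fun ⟨h, h'⟩ => ⟨h, (cubicChar_eq_one_iff hKE ⟨g, h⟩).1 h'⟩⟩

section Local

variable [FiniteDimensional ℚ E] (hE : ContainsMuP 3 E) {A : ValuationSubring Qb}

omit [FiniteDimensional ℚ E] in
/-- A number closer to one than the valuation of `27` is locally a cube. -/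
theorem locF1_kappa_eq_zero_of_close {u : Eˣ}
    (hu : A.valuation (((u : E) : Qb) - 1) < A.valuation (27 : Qb)) :
    locF1 A (kappa hE u) = 0 := by
  set U : Qb := ((u : E) : Qb)
  obtain ⟨ζ, hζ⟩ := HasEnoughRootsOfUnity.exists_primitiveRoot Qb 3
  have h3 : ζ ^ 3 = 1 := hζ.pow_eq_one
  have hs : 1 + ζ + ζ ^ 2 = 0 := by
    have := hζ.geom_sum_eq_zero (by norm_num)
    simpa [Finset.sum_range_succ] using this
  have hint : ∀ n : ℕ, A.valuation (n : Qb) ≤ 1 := fun n => by
    rw [A.valuation_le_one_iff]; exact natCast_mem A n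
  have h27 : A.valuation (27 : Qb) ≤ 1 := by exact_mod_cast hint 27
  have h3le : A.valuation (3 : Qb) ≤ 1 := by exact_mod_cast hint 3
  have hU1 : A.valuation (U - 1) < 1 := hu.trans_le h27
  have hUv : A.valuation U = 1 := by
    have h := A.valuation.map_one_add_of_lt hU1
    rwa [show (1 : Qb) + (U - 1) = U by ring] at h
  obtain ⟨r, hr⟩ := IsAlgClosed.exists_pow_nat_eq U (n := 3) (by norm_num)
  have hroot : ∀ s : Qb, s ^ 3 = 1 → A.valuation s = 1 := fun s hs => by
    have h := congrArg A.valuation hs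
    rw [map_pow, map_one] at h
    exact (pow_eq_one_iff.1 h).resolve_right (by norm_num)
  have hζv := hroot ζ h3
  have hprod : U - 1 = (r - 1) * (r * ζ - 1) * (r * ζ ^ 2 - 1) := by
    rw [← hr]
    linear_combination (r ^ 2 * ζ - r) * hs + -r ^ 3 * h3
  obtain ⟨s, hs3, hs1⟩ : ∃ s, s ^ 3 = U ∧ A.valuation (s - 1) < A.valuation (3 : Qb) := by
    by_contra! hall
    have h0 : ∀ i : ℕ, A.valuation (3 : Qb) ≤ A.valuation (r * ζ ^ i - 1) := fun i =>
      hall _ (by rw [mul_pow, hr, ← pow_mul, mul_comm i, pow_mul, h3, one_pow, mul_one])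
    have h1 : A.valuation (27 : Qb) ≤ A.valuation (U - 1) := by
      rw [hprod, show (27 : Qb) = 3 * 3 * 3 by norm_num, map_mul, map_mul, map_mul, map_mul]
      refine mul_le_mul' (mul_le_mul' ?_ ?_) (h0 2)
      · simpa using h0 0
      · simpa using h0 1
    exact not_le_of_gt hu h1
  have hsv : A.valuation s = 1 := by
    have h := congrArg A.valuation hs3
    rw [map_pow, hUv] at h
    exact (pow_eq_one_iff.1 h).resolve_right (by norm_num)
  have hs0 : s ≠ 0 := fun h => by rw [h, map_zero] at hsv; exact zero_ne_one hsv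
  have hU0 : U ≠ 0 := fun h => by rw [h, map_zero] at hUv; exact zero_ne_one hUv
  have hfix : ∀ σ ∈ localGroup E A, σ s = s := by
    intro σ hσ
    set q := σ s / s with hqdef
    have hq3 : q ^ 3 = 1 := by
      rw [hqdef, div_pow, ← map_pow, hs3, show σ U = U from hσ.1 ⟨U, (u : E).2⟩, div_self hU0]
    have hq : A.valuation (q - 1) < A.valuation (3 : Qb) := by
      have hσ1 : A.valuation (σ s - 1) < A.valuation (3 : Qb) := by
        rw [show σ s - 1 = σ (s - 1) by rw [map_sub, map_one]]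
        exact (FermatAgent.Local.val_galois_eq hσ.2 _).trans_lt hs1
      rw [hqdef, div_sub_one hs0, map_div₀, hsv, div_one,
        show σ s - s = (σ s - 1) - (s - 1) by ring]
      exact lt_of_le_of_lt (A.valuation.map_sub _ _) (max_lt hσ1 hs1)
    refine (div_eq_one_iff_eq hs0).1 (by_contra fun hne => ?_)
    have hsum : q ^ 2 + q + 1 = 0 := by
      refine (mul_eq_zero.mp (show (q - 1) * (q ^ 2 + q + 1) = 0 by linear_combination hq3))
        |>.resolve_left (sub_ne_zero.mpr hne)
    have hqv := hroot q hq3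
    have h2 : A.valuation (q + 2) ≤ 1 :=
      (A.valuation.map_add _ _).trans (max_le hqv.le (by exact_mod_cast hint 2))
    have e : (3 : Qb) = (q - 1) * -(q + 2) := by linear_combination hsum
    refine not_le_of_gt hq ?_
    rw [e, map_mul, Valuation.map_neg]
    exact mul_le_of_le_one_right' h2
  rw [locF1_kappa, Local.kapHom_eq_zero_iff]
  exact ⟨⟨Units.mk0 s hs0, fun σ hσ => hfix σ hσ⟩, Subtype.ext (Units.ext (by
    simpa [toLocal] using hs3))⟩

omit [FiniteDimensional ℚ E] in
/-- A class close to a cube is locally trivial. -/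
theorem locF1_kappa_eq_zero_of_close_cube {u : Eˣ} (y : Eˣ)
    (hu : A.valuation ((((u * y ^ 3 : Eˣ) : E) : Qb) - 1) < A.valuation (27 : Qb)) :
    locF1 A (kappa hE u) = 0 := by
  have h := locF1_kappa_eq_zero_of_close hE hu
  rwa [pow_three, kappa_mul, kappa_mul, kappa_mul,
    show kappa hE y + (kappa hE y + kappa hE y) = (3 : ZMod 3) • kappa hE y by
      rw [show (3 : ZMod 3) = 1 + (1 + 1) by decide, add_smul, add_smul, one_smul],
    show (3 : ZMod 3) = 0 from rfl, zero_smul, add_zero] at h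

end Local

include hKE in
/-- **Hasse's theorem for `E F / E`.** -/
theorem exists_norm_of_conditions [FiniteDimensional ℚ E] {s : GQ} (hsE : s ∈ E.fixingSubgroup)
    (hsF : S.ρ s ∉ quaternionSubgroup) (u : Eˣ)
    (hm : ∀ P : HeightOneSpectrum (𝓞 E), ((S.m : ℕ) : 𝓞 E) ∈ P.asIdeal → ∃ A, Over E A P ∧
      ((∀ σ ∈ localGroup E A, S.ρ σ ∈ quaternionSubgroup) ∨
        locF1 A (kappa (containsMuP_of_le hKE) u) = 0))
    (hgood : ∀ P : HeightOneSpectrum (𝓞 E), ((S.m : ℕ) : 𝓞 E) ∉ P.asIdeal →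
      (∃ A, Over E A P ∧ ∀ σ ∈ localGroup E A, S.ρ σ ∈ quaternionSubgroup) ∨
        (3 : ℤ) ∣ ord P u) :
    ∃ z ∈ E ⊔ S.F, z * s z * s (s z) = ((u : E) : Qb) := by
  have hE := containsMuP_of_le hKE
  obtain ⟨a, ha⟩ := exists_kummerExt_eq_sup hKE
  have hchi : ∀ (g : GQ) (hg : g ∈ E.fixingSubgroup),
      (chi hE a).1 ⟨g, hg⟩ = 0 ↔ S.ρ g ∈ quaternionSubgroup := by
    intro g hg
    have h := mem_fix_kummerExt hE a (g := g)
    rw [ha, IntermediateField.fixingSubgroup_sup, Subgroup.mem_inf, Setup.fixingSubgroup_F,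
      Subgroup.mem_comap] at h
    exact ⟨fun h0 => (h.2 ⟨hg, h0⟩).2, fun h0 => (h.1 ⟨hg, h0⟩).2⟩
  have hsplit : ∀ A : ValuationSubring Qb,
      (∀ σ ∈ localGroup E A, S.ρ σ ∈ quaternionSubgroup) → locF1 A (kappa hE a) = 0 := by
    intro A h
    rw [← cl1_chi]
    exact Local.cl1_triv_eq_zero_iff.mpr
      (Subtype.ext (funext fun d => (hchi _ d.2.1).2 (h d d.2)))
  -- a generator with character one
  set t : E.fixingSubgroup := ⟨s, hsE⟩
  have ht : (chi hE a).1 t ≠ 0 := fun h => hsF ((hchi s hsE).1 h)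
  have hsym : ∀ P : HeightOneSpectrum (𝓞 E), ∃ A, Over E A P ∧ sym hE A u a = 0 := by
    intro P
    obtain ⟨A₀, hA₀⟩ := exists_place P
    obtain ⟨l, hl, hlA⟩ := hA₀.1
    have hlP := hA₀.natCast_mem hlA
    by_cases hbad : ((S.m : ℕ) : 𝓞 E) ∈ P.asIdeal
    · obtain ⟨A, hA, h | h⟩ := hm P hbad
      · exact ⟨A, hA, by rw [sym, hsplit A h, map_zero]⟩
      · exact ⟨A, hA, by rw [sym, h, map_zero]; rfl⟩
    · rcases hgood P hbad with ⟨A, hA, h⟩ | hord
      · exact ⟨A, hA, by rw [sym, hsplit A h, map_zero]⟩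
      · have hl3m : ¬ l ∣ S.m := by
          rintro ⟨c, hc⟩
          refine hbad ?_
          rw [hc, Nat.cast_mul]
          exact Ideal.mul_mem_right _ _ hlP
        have hl3 : l ≠ 3 := fun h => hl3m (h ▸ (dvd_trans (by norm_num) S.six_dvd))
        have haur : locF1 A₀ (kappa hE a) ∈ unramifiedH1 3 E A₀ := by
          rw [← cl1_chi, unramifiedH1, LinearMap.mem_ker]
          refine (cl1_eq_zero_iff _ _ _).2 ⟨0, ?_⟩
          rw [map_zero]
          funext σ
          show (0 : ZMod 3) = (chi hE a).1 ⟨((σ : localGroup E A₀) : GQ), _⟩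
          refine ((hchi _ _).2 ?_).symm
          have h1 : S.ρ ((σ : localGroup E A₀) : GQ) = 1 := S.unramified l hl hl3m A₀ hlA _ σ.2
          rw [h1]
          exact one_mem _
        exact ⟨A₀, hA₀, sym_units_eq_zero hE hA₀ hl hlA hl3 hord
          (dvd_ord_of_unramified hE hA₀ hl hlA hl3 haur)⟩
  choose pl hpl hloc using hsym
  have hg : gsym hE u a = 0 := gsym_eq_zero_of_sym hE pl hpl (Or.inl (by norm_num)) u a hloc
  -- normalise the generator
  obtain ⟨t', ht', hpow⟩ : ∃ t' : E.fixingSubgroup, (chi hE a).1 t' = 1 ∧ (t' = t ∨ t' = t * t) := by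
    have h3 : ∀ x : ZMod 3, x ≠ 0 → x = 1 ∨ x + x = 1 := by decide
    rcases h3 _ ht with h | h
    · exact ⟨t, h, Or.inl rfl⟩
    · exact ⟨t * t, by rw [Local.chi_mul, h], Or.inr rfl⟩
  obtain ⟨z, hz⟩ := exists_norm_of_gsym hE ht' hg
  set Z : Qb := ((z : kummerExt 3 a) : Qb)
  have hz' : Z * (t' : GQ) Z * (t' : GQ) ((t' : GQ) Z) = ((u : E) : Qb) := by
    have h := congrArg (fun w : Eˣ => ((w : E) : Qb)) hz
    simpa [normU, Finset.prod_range_succ, pow_two] using h
  refine ⟨Z, ha ▸ (z : kummerExt 3 a).2, ?_⟩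
  rcases hpow with rfl | rfl
  · exact hz'
  · have h3 : (chi hE a).1 (t * t * t) = 0 := by
      rw [Local.chi_mul, Local.chi_mul]
      generalize (chi hE a).1 t = x
      revert x
      decide
    have hfix : ((t * t * t : E.fixingSubgroup) : GQ) ∈ (kummerExt 3 a).fixingSubgroup :=
      (mem_fix_kummerExt hE a).mpr ⟨(t * t * t).2, h3⟩
    have e : s (s (s Z)) = Z := by
      simpa [AlgEquiv.mul_apply, t] using hfix (z : kummerExt 3 a)
    simp only [Subgroup.coe_mul, AlgEquiv.mul_apply, t] at hz'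
    rw [← hz', e]
    ring

end FermatAgent.LTG.Classes

end
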