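import Fermat.Agent.LT.General.Classes.Norm
import Fermat.Agent.LT.General.Classes.HasseCriterion
import Fermat.Agent.LT.General.Geom.Local.InertField
import Fermat.Agent.LT.Descent.Classes.Hasse

set_option autoImplicit false

/-!
# Classes which are norms locally everywhere are norms, general setup

At the places over `m` with one place of `F` over them the local condition is that a multiple of
the class is a cube in the completion.
-/

noncomputable section

open NumberField IsDedekindDomain WithZero Filter Topology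
open scoped MatrixGroups

namespace FermatAgent.LTG.Classes

open Matrix
open FermatAgent.RT (centre mem_centre_iff)
open FermatAgent.Duality
open FermatAgent.Duality.Global
open FermatAgent.LT (quaternionSubgroup galInt galPlace galPlace_asIdeal GLv locMat loc valued_loc)
open FermatAgent.LT.TF (nm)
open FermatAgent.LT.Classes (pGal torus IsReg pRatio pRatio_mk isReg_mk mk_eq_mk_iff_smul NonScalar
  exists_eq_of_commute nonScalar_of_isReg OddVal oddVal_mk mul_poly mul_self_eq natCast_mem_iff_val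
  val_eq_of_valuation_eq val_lt_one_of_valuation self_mem_torus)

local notation "Qb" => AlgebraicClosure ℚ
local notation "GQ" => AlgebraicClosure ℚ ≃ₐ[ℚ] AlgebraicClosure ℚ
local notation "M₂" => Matrix (Fin 2) (Fin 2)

attribute [local instance] FermatAgent.RT.isGalois_algClosureRat
  FermatAgent.Duality.Global.numberField_of_finite

local instance : Fact (Nat.Prime 3) := ⟨Nat.prime_three⟩

variable {S : Setup} {σ : S.F ≃+* S.F}

section Field

variable {l : Qb} {T D : S.K}

theorem exists_affine (hl : l ^ 2 = (T : Qb) * l - (D : Qb)) {z : Qb}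
    (hz : z ∈ S.K ⊔ IntermediateField.adjoin ℚ {l} ⊔ S.F) :
    ∃ x y : S.F, z = (x : Qb) + (y : Qb) * l := by
  have hle : S.K ⊔ IntermediateField.adjoin ℚ {l} ⊔ S.F ≤
      (IntermediateField.adjoin S.F {l}).restrictScalars ℚ := by
    refine sup_le (sup_le (fun w hw => ?_) ?_) fun w hw => ?_
    · exact (IntermediateField.adjoin S.F {l}).algebraMap_mem ⟨w, S.K_le_F hw⟩
    · rw [IntermediateField.adjoin_simple_le_iff]
      exact IntermediateField.mem_adjoin_simple_self _ l
    · exact (IntermediateField.adjoin S.F {l}).algebraMap_mem ⟨w, hw⟩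
  have hmem : z ∈ (IntermediateField.adjoin S.F {l}).toSubalgebra := hle hz
  have : Algebra.IsIntegral ℚ Qb := Algebra.IsAlgebraic.isIntegral
  rw [IntermediateField.adjoin_simple_toSubalgebra_of_isAlgebraic
    (Algebra.IsIntegral.isIntegral (R := ℚ) l).tower_top.isAlgebraic] at hmem
  clear hz hle
  induction hmem using Algebra.adjoin_induction with
  | mem w hw => exact ⟨0, 1, by rw [Set.mem_singleton_iff.mp hw]; simp⟩
  | algebraMap r => exact ⟨r, 0, by simp⟩
  | add a b _ _ ha hb =>
    obtain ⟨x, y, rfl⟩ := ha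
    obtain ⟨x', y', rfl⟩ := hb
    exact ⟨x + x', y + y', by simp only [IntermediateField.coe_add]; ring⟩
  | mul a b _ _ ha hb =>
    obtain ⟨x, y, rfl⟩ := ha
    obtain ⟨x', y', rfl⟩ := hb
    refine ⟨x * x' - y * y' * S.inclKF D, x * y' + y * x' + y * y' * S.inclKF T, ?_⟩
    simp only [IntermediateField.coe_add, IntermediateField.coe_mul,
      AddSubgroupClass.coe_sub, S.coe_inclKF]
    linear_combination ((y : Qb) * y') * hl

theorem mem_K_of_fixed (hσ : S.IsGalGen σ) {s : GQ} (hs : ∀ x : S.F, s (x : Qb) = (σ x : Qb))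
    (hsl : s l = l) {a b : S.F} (h : (a : Qb) + (b : Qb) * l = 0) (hK : l ∉ S.K) :
    a = 0 ∧ b = 0 := by
  rcases eq_or_ne b 0 with rfl | hb
  · exact ⟨Subtype.ext (by simpa using h), rfl⟩
  exfalso
  have hlF : ((-a / b : S.F) : Qb) = l := by
    have hb' : (b : Qb) ≠ 0 := fun h0 => hb (Subtype.ext h0)
    simp only [IntermediateField.coe_div, IntermediateField.coe_neg]
    rw [div_eq_iff hb']
    linear_combination -h
  obtain ⟨c, hc⟩ := exists_inclKF_eq hσ (x := (-a / b : S.F)) (Subtype.ext (by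
    rw [← hs, hlF, hsl]))
  refine hK ?_
  rw [← hlF, ← hc, S.coe_inclKF]
  exact c.2

theorem mem_fixing_adjoin {s : GQ} (hsK : s ∈ S.K.fixingSubgroup) (hsl : s l = l) :
    s ∈ (S.K ⊔ IntermediateField.adjoin ℚ {l}).fixingSubgroup := by
  have h : S.K ⊔ IntermediateField.adjoin ℚ {l} ≤
      IntermediateField.fixedField (Subgroup.zpowers s) := by
    refine sup_le (IntermediateField.le_iff_le _ _ |>.mpr ?_)
      (IntermediateField.adjoin_simple_le_iff.mpr ?_)
    · rwa [Subgroup.zpowers_le]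
    · rintro ⟨g, hg⟩
      have : Subgroup.zpowers s ≤ MulAction.stabilizer GQ l := by
        rw [Subgroup.zpowers_le]; exact hsl
      exact this hg
  exact (IntermediateField.le_iff_le _ _).mp h (Subgroup.mem_zpowers s)

end Field

/-- A norm of value `l² / det` gives a class of norm `t²`. -/
theorem exists_nm_sq (hσ : S.IsGalGen σ) {g : GL (Fin 2) S.K}
    (ht : IsReg (ProjGenLinGroup.mk g)) {l : Qb}
    (hl : l ^ 2 = ((g : M₂ S.K).trace : Qb) * l - ((g : M₂ S.K).det : Qb))
    {s : GQ} (hsK : s ∈ S.K.fixingSubgroup) (hs : ∀ x : S.F, s (x : Qb) = (σ x : Qb))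
    (hsl : s l = l) {z : Qb} (hz : z ∈ S.K ⊔ IntermediateField.adjoin ℚ {l} ⊔ S.F)
    (hzn : z * s z * s (s z) = l ^ 2 / ((g : M₂ S.K).det : Qb)) :
    ∃ x ∈ torus (pIncl S (ProjGenLinGroup.mk g)),
      nm (pGal σ) x = pIncl S (ProjGenLinGroup.mk g) * pIncl S (ProjGenLinGroup.mk g) := by
  set T := (g : M₂ S.K).trace with hTdef
  set D := (g : M₂ S.K).det with hDdef
  have hD : ((D : S.K) : Qb) ≠ 0 := fun h => g.det_ne_zero (Subtype.ext h)
  have hll : l * ((T : Qb) - l) = D := by linear_combination -hl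
  have hl0 : l ≠ 0 := fun h => hD (by rw [← hll, h, zero_mul])
  have hl' : (T : Qb) - l ≠ 0 := fun h => hD (by rw [← hll, h, mul_zero])
  have hdiff : l - ((T : Qb) - l) ≠ 0 := fun h => by
    refine isReg_mk.mp ht (Subtype.ext ?_)
    rw [← hTdef, ← hDdef]
    simp only [SubmonoidClass.coe_pow, IntermediateField.coe_mul]
    rw [show ((4 : S.K) : Qb) = 4 from map_ofNat S.K.val 4]
    linear_combination (2 * l - (T : Qb)) * h - (4 : Qb) * hl
  obtain ⟨x, y, hxy, hxy'⟩ : ∃ x y : S.F, z = (x : Qb) + (y : Qb) * l ∧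
      (l ∈ S.K → z⁻¹ = (x : Qb) + (y : Qb) * ((T : Qb) - l)) := by
    obtain ⟨x, y, hxy⟩ := exists_affine hl hz
    by_cases hK : l ∈ S.K
    · have hlF : l ∈ S.F := S.K_le_F hK
      have hzF : z ∈ S.F := by
        rw [hxy]; exact add_mem x.2 (mul_mem y.2 hlF)
      let lF : S.F := ⟨l, hlF⟩
      let zF : S.F := ⟨z, hzF⟩
      let Y : S.F := (zF - zF⁻¹) / (lF - (S.inclKF T - lF))
      refine ⟨zF - Y * lF, Y, by simp [zF, lF], fun _ => ?_⟩
      simp only [Y, AddSubgroupClass.coe_sub, IntermediateField.coe_mul, IntermediateField.coe_div,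
        IntermediateField.coe_inv, S.coe_inclKF, zF, lF]
      field_simp
      ring
    · exact ⟨x, y, hxy, fun h => absurd h hK⟩
  -- the norm of `x + y G`
  set G : M₂ S.F := (gIncl S g : M₂ S.F) with hG
  have hG2 : G * G = S.inclKF T • G - S.inclKF D • (1 : M₂ S.F) := by
    rw [mul_self_eq G, hG, trace_gIncl, det_gIncl]
  have hΦG : σ.toRingHom.mapMatrix G = G := congrArg Units.val (gGal_gIncl hσ g)
  have hΦ : ∀ a b : S.F, σ.toRingHom.mapMatrix (a • (1 : M₂ S.F) + b • G) =
      σ a • (1 : M₂ S.F) + σ b • G := by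
    intro a b
    conv_rhs => rw [← hΦG]
    ext i j
    simp [Matrix.one_apply, apply_ite σ]
  set Z : M₂ S.F := x • (1 : M₂ S.F) + y • G with hZ
  set a₁ : S.F := x * σ x - y * σ y * S.inclKF D
  set b₁ : S.F := x * σ y + y * σ x + y * σ y * S.inclKF T
  set a : S.F := a₁ * σ (σ x) - b₁ * σ (σ y) * S.inclKF D with ha
  set b : S.F := a₁ * σ (σ y) + b₁ * σ (σ x) + b₁ * σ (σ y) * S.inclKF T with hb
  have hN : Z * σ.toRingHom.mapMatrix Z * σ.toRingHom.mapMatrix (σ.toRingHom.mapMatrix Z) =
      a • (1 : M₂ S.F) + b • G := by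
    rw [hZ, hΦ, hΦ, mul_poly hG2, mul_poly hG2]
  have heval : ∀ e : Qb, s e = e → e ^ 2 = (T : Qb) * e - (D : Qb) →
      ((x : Qb) + (y : Qb) * e) * s ((x : Qb) + (y : Qb) * e) *
        s (s ((x : Qb) + (y : Qb) * e)) = (a : Qb) + (b : Qb) * e := by
    intro e he he2
    simp only [map_add, map_mul, he, hs, ha, hb, a₁, b₁, IntermediateField.coe_add,
      IntermediateField.coe_mul, AddSubgroupClass.coe_sub, S.coe_inclKF]
    generalize (x : Qb) = x₀, (y : Qb) = y₀, ((σ x : S.F) : Qb) = x₁, ((σ y : S.F) : Qb) = y₁,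
      ((σ (σ x) : S.F) : Qb) = x₂, ((σ (σ y) : S.F) : Qb) = y₂
    linear_combination (y₀ * y₁ * x₂ + y₀ * x₁ * y₂ + x₀ * y₁ * y₂ + y₀ * y₁ * y₂ * (e + (T : Qb))) * he2
  have hT' : s (T : Qb) = T := hsK T
  have hsT : s ((T : Qb) - l) = (T : Qb) - l := by rw [map_sub, hsl, hT']
  have e1 : (a : Qb) + (b : Qb) * l = l ^ 2 / D := by
    rw [← heval l hsl hl, ← hxy, hzn]
  have hab : a = -1 ∧ b = S.inclKF (T / D) := by
    have e1' : ((a + 1 : S.F) : Qb) + ((b - S.inclKF (T / D) : S.F) : Qb) * l = 0 := by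
      simp only [IntermediateField.coe_add, AddSubgroupClass.coe_sub, OneMemClass.coe_one,
        S.coe_inclKF, IntermediateField.coe_div]
      rw [eq_div_iff hD] at e1
      field_simp
      linear_combination e1 + hl
    by_cases hK : l ∈ S.K
    · have hz' := hxy' hK
      have e2 : (a : Qb) + (b : Qb) * ((T : Qb) - l) = ((T : Qb) - l) ^ 2 / D := by
        rw [← heval _ hsT (by linear_combination hl), ← hz', map_inv₀, map_inv₀, ← mul_inv, ← mul_inv,
          hzn, inv_div, eq_div_iff hD, div_mul_eq_mul_div, div_eq_iff (pow_ne_zero 2 hl0)]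
        linear_combination (-((D : S.K) : Qb) - l * ((T : Qb) - l)) * hll
      simp only [IntermediateField.coe_add, AddSubgroupClass.coe_sub, OneMemClass.coe_one,
        S.coe_inclKF, IntermediateField.coe_div] at e1'
      rw [eq_div_iff hD] at e2
      have hb0 : (l - ((T : Qb) - l)) * ((b : Qb) - (T : Qb) / D) = 0 := by
        field_simp
        field_simp at e1'
        linear_combination e1' - e2 - hl
      have hbQ := sub_eq_zero.mp ((mul_eq_zero.mp hb0).resolve_left hdiff)
      rw [hbQ, sub_self, zero_mul, add_zero] at e1'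
      exact ⟨Subtype.ext (by simpa using eq_neg_of_add_eq_zero_left e1'),
        Subtype.ext (by rw [hbQ, S.coe_inclKF, IntermediateField.coe_div])⟩
    · obtain ⟨h1, h2⟩ := mem_K_of_fixed hσ hs hsl e1' hK
      exact ⟨eq_neg_of_add_eq_zero_left h1, sub_eq_zero.mp h2⟩
  have hN2 : S.inclKF D • (Z * σ.toRingHom.mapMatrix Z *
      σ.toRingHom.mapMatrix (σ.toRingHom.mapMatrix Z)) = G * G := by
    have hD0 : S.inclKF D ≠ 0 := (_root_.map_ne_zero _).mpr g.det_ne_zero
    rw [hN, hG2, hab.1, hab.2, map_div₀, smul_add, smul_smul, smul_smul,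
      mul_div_cancel₀ _ hD0, mul_neg, mul_one, neg_smul, neg_add_eq_sub]
  have hZ0 : Z.det ≠ 0 := by
    intro h0
    have := congrArg Matrix.det hN2
    rw [Matrix.det_smul, Matrix.det_mul, Matrix.det_mul, h0, zero_mul, zero_mul, mul_zero,
      Matrix.det_mul] at this
    exact mul_ne_zero (gIncl S g).det_ne_zero (gIncl S g).det_ne_zero this.symm
  refine ⟨ProjGenLinGroup.mk (GeneralLinearGroup.mkOfDetNeZero Z hZ0),
    mem_torus_pIncl_mk.mpr ⟨_, ?_, rfl⟩, ?_⟩
  · show Z * G = G * Z
    simp only [hZ, Matrix.add_mul, Matrix.mul_add, Matrix.smul_mul, Matrix.mul_smul,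
      Matrix.one_mul, Matrix.mul_one]
  · rw [nm_mk, pIncl_mk, ← map_mul, mk_eq_mk_iff_smul]
    exact ⟨S.inclKF D, hN2⟩

/-- An element of the decomposition group outside `Q₈` fixes the place of `F`. -/
theorem q8_of_moved (hσ : S.IsGalGen σ) {A : ValuationSubring Qb} {w : HeightOneSpectrum (𝓞 S.F)}
    (hA : Over S.F A w) (hne : galPlace σ w ≠ w) {g : GQ} (hgK : g ∈ S.K.fixingSubgroup)
    (hgd : g ∈ A.decompositionSubgroup ℚ) : S.ρ g ∈ quaternionSubgroup := by
  by_contra hq
  have hmem : ∀ x : 𝓞 S.F, galInt (S.gRes g) x ∈ w.asIdeal ↔ x ∈ w.asIdeal := by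
    intro x
    have e : toZB S.F (galInt (S.gRes g) x) = g • toZB S.F x := Subtype.ext (S.coe_gRes g _)
    rw [← hA.2, Ideal.mem_comap, Ideal.mem_comap, e]
    conv_lhs => rw [← TW.smul_centre_eq hgd]
    exact Ideal.smul_mem_pointwise_smul_iff
  obtain ⟨h2, -⟩ := galPlace_moved hσ hne
  rcases Setup.IsGalGen.cases S hσ ((S.gRes_fixes_iff g).mpr hgK) with h | h | h
  · exact hq ((S.gRes_eq_refl_iff g).mp h)
  · refine hne (HeightOneSpectrum.ext (Ideal.ext fun x => ?_))
    rw [galPlace_asIdeal, Ideal.mem_comap, ← h]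
    exact hmem x
  · refine h2 (HeightOneSpectrum.ext (Ideal.ext fun x => ?_))
    rw [galPlace_asIdeal, Ideal.mem_comap, galPlace_asIdeal, Ideal.mem_comap]
    rw [show galInt σ (galInt σ x) = galInt (S.gRes g) x by rw [h]; rfl]
    exact hmem x

/-- The constant coefficient of `(a + b X) ^ 3` modulo `X ^ 2 - T X + D`. -/
def cubeP {R : Type*} [CommRing R] (T D a b : R) : R := a ^ 3 - 3 * a * b ^ 2 * D - b ^ 3 * T * D

/-- The linear coefficient of `(a + b X) ^ 3` modulo `X ^ 2 - T X + D`. -/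
def cubeQ {R : Type*} [CommRing R] (T D a b : R) : R :=
  3 * a ^ 2 * b + 3 * a * b ^ 2 * T + b ^ 3 * (T ^ 2 - D)

theorem map_cubeP {R R' : Type*} [CommRing R] [CommRing R'] (f : R →+* R') (T D a b : R) :
    f (cubeP T D a b) = cubeP (f T) (f D) (f a) (f b) := by simp [cubeP, map_ofNat]

theorem map_cubeQ {R R' : Type*} [CommRing R] [CommRing R'] (f : R →+* R') (T D a b : R) :
    f (cubeQ T D a b) = cubeQ (f T) (f D) (f a) (f b) := by simp [cubeQ, map_ofNat]

theorem continuous_cubeP {R : Type*} [CommRing R] [TopologicalSpace R] [IsTopologicalRing R]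
    (T D : R) : Continuous fun p : R × R => cubeP T D p.1 p.2 := by
  unfold cubeP; fun_prop

theorem continuous_cubeQ {R : Type*} [CommRing R] [TopologicalSpace R] [IsTopologicalRing R]
    (T D : R) : Continuous fun p : R × R => cubeQ T D p.1 p.2 := by
  unfold cubeQ; fun_prop

/-- A cube root of a multiple of a nonscalar matrix lies in its commutant. -/
theorem exists_coeff_of_cube {L : Type*} [Field L] {G d : M₂ L} {c : L} (hns : NonScalar G)
    (hc : c ≠ 0) (h : d ^ 3 = c • G) :
    ∃ a b : L, cubeP G.trace G.det a b = 0 ∧ cubeQ G.trace G.det a b = c := by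
  obtain ⟨a, b, hab⟩ := exists_eq_of_commute hns (X := d) (by
    refine smul_right_injective _ hc ?_
    show c • (d * G) = c • (G * d)
    rw [← Matrix.mul_smul, ← Matrix.smul_mul, ← h, ← pow_succ, ← pow_succ'])
  refine ⟨a, b, ?_⟩
  have hexp : d ^ 3 = cubeP G.trace G.det a b • 1 + cubeQ G.trace G.det a b • G := by
    rw [hab, pow_three, mul_poly (mul_self_eq G), mul_poly (mul_self_eq G)]
    congr 1 <;> congr 1 <;> simp only [cubeP, cubeQ] <;> ring
  rw [h] at hexp
  have h01 := congrFun (congrFun hexp 0) 1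
  have h10 := congrFun (congrFun hexp 1) 0
  have h00 := congrFun (congrFun hexp 0) 0
  have h11 := congrFun (congrFun hexp 1) 1
  simp [Matrix.add_apply, Matrix.smul_apply] at h01 h10 h00 h11
  have hQ : cubeQ G.trace G.det a b = c := by
    by_contra hne
    have hne' : cubeQ G.trace G.det a b - c ≠ 0 := sub_ne_zero.mpr hne
    refine hns ⟨?_, ?_, ?_⟩
    · rcases h01 with h01 | h01
      · exact absurd h01.symm hne
      · exact h01
    · rcases h10 with h10 | h10
      · exact absurd h10.symm hne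
      · exact h10
    · exact sub_eq_zero.mp ((mul_eq_zero.mp (show (cubeQ G.trace G.det a b - c) *
        (G 0 0 - G 1 1) = 0 by linear_combination -h00 + h11)).resolve_left hne')
  refine ⟨?_, hQ⟩
  rw [hQ] at h00
  linear_combination -h00

open Classical in
/-- A bound for the eigenvalues. -/
theorem exists_bound (v : HeightOneSpectrum (𝓞 S.K)) (T D : S.K) :
    ∃ M : S.K, M ≠ 0 ∧ ∀ A : ValuationSubring Qb, Over S.K A v → ∀ e : Qb,
      e ^ 2 = (T : Qb) * e - (D : Qb) → A.valuation e ≤ A.valuation (M : Qb) := by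
  obtain ⟨M, hM, hmax⟩ := Finset.exists_max_image ({1, T, D} : Finset S.K) (v.valuation S.K) (by simp)
  have h1 : 1 ≤ v.valuation S.K M := by simpa using hmax 1 (by simp)
  have hM0 : M ≠ 0 := fun h => by simp [h] at h1
  refine ⟨M, hM0, fun A hA e he => ?_⟩
  have hle : ∀ x : S.K, v.valuation S.K x ≤ v.valuation S.K M →
      A.valuation (x : Qb) ≤ A.valuation (M : Qb) := fun x hx => by
    have h : A.valuation ((x / M : S.K) : Qb) ≤ 1 := (hA.val_le_one_iff _).mpr
      (by rw [map_div₀]; exact div_le_one_of_le₀ hx zero_le)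
    rw [IntermediateField.coe_div, map_div₀, div_le_one₀ (zero_lt_iff.mpr
      ((_root_.map_ne_zero _).mpr fun hc => hM0 (Subtype.ext hc)))] at h
    exact h
  have hone : (1 : A.ValueGroup) ≤ A.valuation (M : Qb) := by
    simpa using hle 1 (by simpa using h1)
  by_contra! hlt
  have hT := (hle T (hmax T (by simp))).trans_lt hlt
  have hee : A.valuation ((T : Qb) * e) < A.valuation e * A.valuation e := by
    rw [map_mul]
    exact mul_lt_mul_of_pos_right hT (zero_le.trans_lt hlt)
  have hD' : A.valuation (D : Qb) < A.valuation e * A.valuation e :=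
    ((hle D (hmax D (by simp))).trans_lt hlt).trans_le
      (le_mul_of_one_le_left' (hone.trans hlt.le))
  have := (A.valuation.map_sub ((T : Qb) * e) (D : Qb)).trans_lt (max_lt hee hD')
  rw [← he, map_pow, pow_two] at this
  exact lt_irrefl _ this

/-- A cube root of a scalar times `g` over the completion gives global cube roots up to a small
error. -/
theorem exists_close_cube {v : HeightOneSpectrum (𝓞 S.K)} {g : GL (Fin 2) S.K}
    (hg : NonScalar (g : M₂ S.K)) {d : GLv v} {c : v.adicCompletion S.K}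
    (h : (d : M₂ (v.adicCompletion S.K)) ^ 3 =
      c • (locMat v g : M₂ (v.adicCompletion S.K))) {k : S.K} (hk : k ≠ 0) :
    ∃ x y P Q : S.K, Q ≠ 0 ∧ v.valuation S.K (P / Q) < v.valuation S.K k ∧
      ∀ e : Qb, e ^ 2 = ((g : M₂ S.K).trace : Qb) * e - ((g : M₂ S.K).det : Qb) →
        ((x : Qb) + (y : Qb) * e) ^ 3 = (P : Qb) + (Q : Qb) * e := by
  set T := (g : M₂ S.K).trace
  set D := (g : M₂ S.K).det
  set G : M₂ (v.adicCompletion S.K) := (locMat v g : M₂ (v.adicCompletion S.K)) with hG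
  have hGe : G = (g : M₂ S.K).map (loc v) := rfl
  have hns : NonScalar G := fun ⟨h1, h2, h3⟩ => hg ⟨(loc v).injective (h1.trans (map_zero _).symm),
    (loc v).injective (h2.trans (map_zero _).symm), (loc v).injective h3⟩
  have hd3 : ((d : M₂ (v.adicCompletion S.K)) ^ 3).det ≠ 0 := by
    rw [Matrix.det_pow]; exact pow_ne_zero _ d.det_ne_zero
  have hc : c ≠ 0 := by
    rintro rfl
    rw [h, zero_smul, Matrix.det_zero] at hd3
    · exact hd3 rfl
  obtain ⟨a, b, hP0, hQ0c⟩ := exists_coeff_of_cube hns hc h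
  have hT : G.trace = loc v T := (AddMonoidHom.map_trace (loc v).toAddMonoidHom (g : M₂ S.K)).symm
  have hD : G.det = loc v D := ((loc v).map_det (g : M₂ S.K)).symm
  rw [hT, hD] at hP0 hQ0c
  have hkv : Valued.v.restrict (c * loc v k) ≠ 0 := by
    rw [ne_eq, Valuation.restrict_eq_zero_iff]
    exact (Valuation.ne_zero_iff _).mpr (mul_ne_zero hc ((_root_.map_ne_zero _).mpr hk))
  have hU1 : (fun p : v.adicCompletion S.K × v.adicCompletion S.K =>
      cubeP (loc v T) (loc v D) p.1 p.2) ⁻¹'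
      {x | Valued.v.restrict x < Valued.v.restrict (c * loc v k)} ∈ 𝓝 (a, b) :=
    (continuous_cubeP _ _).continuousAt ((Valued.isOpen_ball _ _).mem_nhds (by
      rw [Set.mem_ofPred_eq, hP0, map_zero]; exact zero_lt_iff.mpr hkv))
  have hU2 : (fun p : v.adicCompletion S.K × v.adicCompletion S.K =>
      cubeQ (loc v T) (loc v D) p.1 p.2) ⁻¹' {x | Valued.v x = Valued.v c} ∈ 𝓝 (a, b) := by
    refine (continuous_cubeQ _ _).continuousAt ?_
    rw [hQ0c]
    exact Valued.locally_const ((Valuation.ne_zero_iff _).mpr hc)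
  obtain ⟨_, ⟨hp1, hp2⟩, ⟨x, y⟩, rfl⟩ := mem_closure_iff_nhds.mp
    (((HeightOneSpectrum.denseRange_algebraMap (K := S.K) v).prodMap
      (HeightOneSpectrum.denseRange_algebraMap (K := S.K) v)) (a, b)) _ (inter_mem hU1 hU2)
  set P : S.K := cubeP T D x y with hPdef
  set Q : S.K := cubeQ T D x y with hQdef
  have eP : loc v P = cubeP (loc v T) (loc v D) (loc v x) (loc v y) := map_cubeP _ _ _ _ _
  have eQ : loc v Q = cubeQ (loc v T) (loc v D) (loc v x) (loc v y) := map_cubeQ _ _ _ _ _
  have hQv : v.valuation S.K Q = Valued.v c := by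
    rw [← valued_loc, eQ]
    exact hp2
  have hQ0 : Q ≠ 0 := fun h0 => by
    rw [h0, map_zero] at hQv
    exact (Valuation.ne_zero_iff _).mpr hc hQv.symm
  refine ⟨x, y, P, Q, hQ0, ?_, fun e he => ?_⟩
  · have hp : Valued.v.restrict (cubeP (loc v T) (loc v D) (loc v x) (loc v y)) <
        Valued.v.restrict (c * loc v k) := hp1
    rw [Valuation.restrict_lt_iff, ← eP, map_mul, valued_loc, valued_loc] at hp
    rw [map_div₀, hQv, div_lt_iff₀ (zero_lt_iff.mpr ((Valuation.ne_zero_iff _).mpr hc)), mul_comm]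
    exact hp
  · have h3 : ((3 : S.K) : Qb) = 3 := map_ofNat S.K.val 3
    simp only [hPdef, hQdef, cubeP, cubeQ, AddSubgroupClass.coe_sub, IntermediateField.coe_add,
      IntermediateField.coe_mul, SubmonoidClass.coe_pow, h3]
    linear_combination ((y : Qb) ^ 3 * e + 3 * (x : Qb) * (y : Qb) ^ 2 +
      (y : Qb) ^ 3 * (T : Qb)) * he

/-- The class of `l² / det` is locally a cube when a multiple of the class has a cube root. -/
theorem locF1_kappa_eq_zero_of_cube_eqs {l : Qb} {T D M x y P Q : S.K} {v : HeightOneSpectrum (𝓞 S.K)}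
    (hE : ContainsMuP 3 (S.K ⊔ IntermediateField.adjoin ℚ {l} : IntermediateField ℚ Qb))
    {A : ValuationSubring Qb} (hv : Over S.K A v) (hl : l ^ 2 = (T : Qb) * l - (D : Qb))
    (hl0 : l ≠ 0) (hD : (D : Qb) ≠ 0) (hQ0 : Q ≠ 0) (hMQ : (M : Qb) ≠ 0)
    (hM : ∀ A : ValuationSubring Qb, Over S.K A v → ∀ e : Qb,
      e ^ 2 = (T : Qb) * e - (D : Qb) → A.valuation e ≤ A.valuation (M : Qb))
    (hPQ : v.valuation S.K (P / Q) < v.valuation S.K (27 * D / M))
    (hcube : ∀ e : Qb, e ^ 2 = (T : Qb) * e - (D : Qb) →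
      ((x : Qb) + (y : Qb) * e) ^ 3 = (P : Qb) + (Q : Qb) * e)
    (u : (S.K ⊔ IntermediateField.adjoin ℚ {l} : IntermediateField ℚ Qb)ˣ)
    (hlmem : l ∈ IntermediateField.adjoin ℚ {l})
    (hu : ((u : (S.K ⊔ IntermediateField.adjoin ℚ {l} : IntermediateField ℚ Qb)) : Qb) =
      l ^ 2 / (D : Qb))
    [FiniteDimensional ℚ (S.K ⊔ IntermediateField.adjoin ℚ {l} : IntermediateField ℚ Qb)] :
    locF1 A (kappa hE u) = 0 := by
  set l' := (T : Qb) - l with hl'def
  have hll : l * l' = (D : Qb) := by linear_combination -hl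
  have hl' : l' ≠ 0 := fun h => hD (by rw [← hll, h, mul_zero])
  have hl'2 : l' ^ 2 = (T : Qb) * l' - (D : Qb) := by linear_combination hl
  have hk : A.valuation ((P : Qb) / (Q : Qb)) <
      A.valuation ((27 : Qb) * (D : Qb) / (M : Qb)) := by
    have hk0 : (27 * D / M : S.K) ≠ 0 := div_ne_zero
      (mul_ne_zero (by norm_num) fun h => hD (by simp [h])) fun h => hMQ (by simp [h])
    have h := val_lt_one_of_valuation hv (x := P / Q / (27 * D / M)) (by
      rw [map_div₀, div_lt_one₀ (zero_lt_iff.mpr ((_root_.map_ne_zero _).mpr hk0))]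
      exact hPQ)
    rw [show ((P / Q / (27 * D / M) : S.K) : Qb) =
      (P : Qb) / (Q : Qb) / ((27 : Qb) * (D : Qb) / (M : Qb)) by
        simp only [IntermediateField.coe_div, IntermediateField.coe_mul]
        rw [show ((27 : S.K) : Qb) = 27 from map_ofNat S.K.val 27],
      map_div₀, div_lt_one₀ (zero_lt_iff.mpr ((_root_.map_ne_zero _).mpr
        (div_ne_zero (mul_ne_zero (by norm_num) hD) hMQ)))] at h
    exact h
  have key : ∀ e e' : Qb, e * e' = (D : Qb) → e ≠ 0 → A.valuation e' ≤ A.valuation (M : Qb) →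
      A.valuation ((P : Qb) / ((Q : Qb) * e)) < A.valuation (27 : Qb) := by
    intro e e' hee he hb
    have he' : e' ≠ 0 := fun h => hD (by rw [← hee, h, mul_zero])
    rw [← div_div, map_div₀, div_lt_iff₀ (zero_lt_iff.mpr ((_root_.map_ne_zero _).mpr he))]
    refine hk.trans_le ?_
    rw [map_div₀, map_mul, ← hee, map_mul, div_le_iff₀ (zero_lt_iff.mpr
      ((_root_.map_ne_zero _).mpr hMQ)), mul_assoc]
    exact mul_le_mul_right (mul_le_mul_right hb _) _
  set a := (P : Qb) / ((Q : Qb) * l) with hadef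
  set b := (P : Qb) / ((Q : Qb) * l') with hbdef
  have ha := key l l' hll hl0 (hM A hv l' hl'2)
  have hb := key l' l (by rw [mul_comm]; exact hll) hl' (hM A hv l hl)
  have h27 : A.valuation (27 : Qb) ≤ 1 := by
    rw [A.valuation_le_one_iff]; exact natCast_mem A 27
  have h1a : A.valuation (1 + a) = 1 := A.valuation.map_one_add_of_lt (ha.trans_le h27)
  have h1b : A.valuation (1 + b) = 1 := A.valuation.map_one_add_of_lt (hb.trans_le h27)
  have hQ : (Q : Qb) ≠ 0 := fun h => hQ0 (Subtype.ext h)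
  have e1 : ((x : Qb) + (y : Qb) * l) ^ 3 = (Q : Qb) * l * (1 + a) := by
    rw [hcube l hl, hadef]
    field_simp
    ring
  have e2 : ((x : Qb) + (y : Qb) * l') ^ 3 = (Q : Qb) * l' * (1 + b) := by
    rw [hcube l' hl'2, hbdef]
    field_simp
    ring
  have h1a0 : 1 + a ≠ 0 := fun h => by rw [h, map_zero] at h1a; exact zero_ne_one h1a
  have h1b0 : 1 + b ≠ 0 := fun h => by rw [h, map_zero] at h1b; exact zero_ne_one h1b
  have hy1 : (x : Qb) + (y : Qb) * l ≠ 0 := fun h => by
    rw [h, zero_pow three_ne_zero] at e1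
    exact mul_ne_zero (mul_ne_zero hQ hl0) h1a0 e1.symm
  have hy2 : (x : Qb) + (y : Qb) * l' ≠ 0 := fun h => by
    rw [h, zero_pow three_ne_zero] at e2
    exact mul_ne_zero (mul_ne_zero hQ hl') h1b0 e2.symm
  have hKE : ∀ z : S.K, (z : Qb) ∈ S.K ⊔ IntermediateField.adjoin ℚ {l} :=
    fun z => (le_sup_left : S.K ≤ S.K ⊔ IntermediateField.adjoin ℚ {l}) z.2
  have hlE : l ∈ S.K ⊔ IntermediateField.adjoin ℚ {l} :=
    (le_sup_right : IntermediateField.adjoin ℚ {l} ≤ S.K ⊔ IntermediateField.adjoin ℚ {l}) hlmem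
  have hymem : ((x : Qb) + (y : Qb) * l') / ((x : Qb) + (y : Qb) * l) ∈
      S.K ⊔ IntermediateField.adjoin ℚ {l} :=
    div_mem (add_mem (hKE x) (mul_mem (hKE y) (sub_mem (hKE T) hlE)))
      (add_mem (hKE x) (mul_mem (hKE y) hlE))
  refine locF1_kappa_eq_zero_of_close_cube hE
    (Units.mk0 ⟨_, hymem⟩ fun h => div_ne_zero hy2 hy1 (congrArg Subtype.val h)) ?_
  simp only [Units.val_mul, Units.val_pow_eq_pow_val, Units.val_mk0, IntermediateField.coe_mul,
    SubmonoidClass.coe_pow]
  rw [hu, div_pow, e1, e2, show l ^ 2 / (D : Qb) * ((Q : Qb) * l' * (1 + b) /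
      ((Q : Qb) * l * (1 + a))) - 1 = (b - a) / (1 + a) by
    field_simp
    rw [← hll]
    ring]
  rw [map_div₀, h1a, div_one]
  exact lt_of_le_of_lt (A.valuation.map_sub _ _) (max_lt hb ha)

section Main

variable {l : Qb}

/-- **Classes which are norms locally everywhere are norms.** -/
theorem exists_nm_of_local (hσ : S.IsGalGen σ) {v₀ : HeightOneSpectrum (𝓞 S.K)}
    {g : GL (Fin 2) S.K} (hodd : OddVal v₀ (ProjGenLinGroup.mk g))
    (hinert : ∀ w : HeightOneSpectrum (𝓞 S.F), ((S.m : ℕ) : 𝓞 S.F) ∉ w.asIdeal →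
      galPlace σ w = w → 1 < (S.underK w).valuation S.K (pRatio (ProjGenLinGroup.mk g)) →
      ∃ c : WithZero (Multiplicative ℤ),
        c ^ 3 = (S.underK w).valuation S.K (pRatio (ProjGenLinGroup.mk g)))
    (hbad : ∀ v : HeightOneSpectrum (𝓞 S.K), ((S.m : ℕ) : 𝓞 S.K) ∈ v.asIdeal → S.IsFixed v →
      ∃ (d : GLv v) (c : v.adicCompletion S.K),
        (d : M₂ (v.adicCompletion S.K)) ^ 3 = c • (locMat v g : M₂ (v.adicCompletion S.K))) :
    ∃ δ : PGL(2, S.F), nm (pGal σ) δ = pIncl S (ProjGenLinGroup.mk g) := by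
  have ht := isReg_of_oddVal hodd
  set T := (g : M₂ S.K).trace with hTdef
  set D := (g : M₂ S.K).det with hDdef
  by_cases hT0 : T = 0
  · -- an involution is its own norm
    have h2 : ProjGenLinGroup.mk g * ProjGenLinGroup.mk g = 1 := by
      rw [← map_mul, ← map_one ProjGenLinGroup.mk, eq_comm, mk_eq_mk_iff_smul]
      exact ⟨-D, by rw [Units.val_mul, Units.val_one, mul_self_eq, ← hTdef, hT0, zero_smul,
        zero_sub, neg_smul]⟩
    refine ⟨pIncl S (ProjGenLinGroup.mk g), ?_⟩
    rw [nm, pGal_pIncl hσ, pGal_pIncl hσ, ← map_mul, ← map_mul, h2, one_mul]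
  have hD : ((D : S.K) : Qb) ≠ 0 := fun h => g.det_ne_zero (Subtype.ext h)
  obtain ⟨l, hl⟩ := IsAlgClosed.exists_root
    (Polynomial.X ^ 2 - Polynomial.C (T : Qb) * Polynomial.X + Polynomial.C (D : Qb) : Polynomial Qb)
    (by
      intro h
      have := congrArg (fun p : Polynomial Qb => p.coeff 2) (Polynomial.eq_C_of_degree_eq_zero h)
      simp [Polynomial.coeff_C] at this)
  simp only [Polynomial.IsRoot.def, Polynomial.eval_add, Polynomial.eval_sub, Polynomial.eval_mul,
    Polynomial.eval_pow, Polynomial.eval_X, Polynomial.eval_C] at hl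
  replace hl : l ^ 2 = (T : Qb) * l - (D : Qb) := by linear_combination hl
  have hl0 : l ≠ 0 := fun h => hD (by rw [h] at hl; linear_combination hl)
  -- a generator of `Gal(F/K)` fixing `l`
  obtain ⟨s₁, hs₁K, -, hs₁⟩ := exists_extension hσ
  set s := s₁ * s₁ * (s₁ * s₁) with hsdef
  have hsK : s ∈ S.K.fixingSubgroup := mul_mem (mul_mem hs₁K hs₁K) (mul_mem hs₁K hs₁K)
  have hT' : s₁ (T : Qb) = T := hs₁K T
  have hD' : s₁ (D : Qb) = D := hs₁K D
  have hsl : s l = l := by
    have hroot : s₁ l = l ∨ s₁ l = (T : Qb) - l := by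
      have e := congrArg s₁ hl
      rw [map_pow, map_sub, map_mul, hT', hD'] at e
      rcases mul_eq_zero.mp (show (s₁ l - l) * (s₁ l - ((T : Qb) - l)) = 0 by
        linear_combination e - hl) with h | h
      · exact Or.inl (sub_eq_zero.mp h)
      · exact Or.inr (sub_eq_zero.mp h)
    have h2 : s₁ (s₁ l) = l := by
      rcases hroot with h | h
      · rw [h, h]
      · rw [h, map_sub, hT', h, sub_sub_cancel]
    simp only [hsdef, AlgEquiv.mul_apply, h2]
  have hs : ∀ x : S.F, s (x : Qb) = (σ x : Qb) := fun x => by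
    simp only [hsdef, AlgEquiv.mul_apply, hs₁, gal_three hσ]
  have hsF : S.ρ s ∉ quaternionSubgroup := fun h => hσ.1 (RingEquiv.ext fun x =>
    Subtype.ext ((hs x).symm.trans (S.apply_eq_self_of_q8 h x.2)))
  set E : IntermediateField ℚ Qb := S.K ⊔ IntermediateField.adjoin ℚ {l} with hE
  have : FiniteDimensional ℚ (IntermediateField.adjoin ℚ {l}) :=
    IntermediateField.adjoin.finiteDimensional
      (FermatAgent.RT.isGalois_algClosureRat.to_normal.isIntegral _)
  have : FiniteDimensional ℚ S.K := S.finiteDimensional_fixedField _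
  have : FiniteDimensional ℚ E := IntermediateField.finiteDimensional_sup _ _
  set U : Qb := l ^ 2 / D with hU
  have hU0 : U ≠ 0 := div_ne_zero (pow_ne_zero 2 hl0) hD
  have hUE : U ∈ E := div_mem
    (pow_mem ((le_sup_right : _ ≤ E) (IntermediateField.mem_adjoin_simple_self ℚ l)) 2)
    ((le_sup_left : _ ≤ E) D.2)
  let u : Eˣ := Units.mk0 ⟨U, hUE⟩ fun h => hU0 (congrArg Subtype.val h)
  set r : S.K := pRatio (ProjGenLinGroup.mk g) with hr
  have hrD : r = T ^ 2 / D := rfl
  have hr0 : r ≠ 0 := by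
    rw [hrD]; exact div_ne_zero (pow_ne_zero 2 hT0) g.det_ne_zero
  have hru : (r : Qb) * U = (U + 1) ^ 2 := by
    rw [hrD, hU, IntermediateField.coe_div, SubmonoidClass.coe_pow]
    field_simp
    linear_combination (-(l ^ 2 + (T : Qb) * l + D)) * hl
  obtain ⟨z, hz, hzn⟩ : ∃ z ∈ E ⊔ S.F, z * s z * s (s z) = U := by
    refine exists_norm_of_conditions (S := S) (E := E) le_sup_left (mem_fixing_adjoin hsK hsl)
      hsF u ?_ ?_
    · intro P hP
      obtain ⟨A, hA⟩ := exists_place P
      obtain ⟨w, hw⟩ := exists_over (K := S.F) (A := A) hA.1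
      refine ⟨A, hA, ?_⟩
      by_cases hfix : galPlace σ w = w
      swap
      · exact Or.inl fun τ hτ => q8_of_moved hσ hw hfix
          (IntermediateField.fixingSubgroup_antitone le_sup_left hτ.1) hτ.2
      refine Or.inr ?_
      have hv := S.over_underK hw
      obtain ⟨M, hM0, hM⟩ := exists_bound (S.underK w) T D
      obtain ⟨d, c, hdc⟩ := hbad (S.underK w)
        ((natCast_mem_iff_val hv _).mpr ((natCast_mem_iff_val hA _).mp hP))
        (fun w₁ w₂ e1 e2 => (eq_of_galPlace_fixed hσ hfix e1).trans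
          (eq_of_galPlace_fixed hσ hfix e2).symm)
      have hMQ : (M : Qb) ≠ 0 := fun h => hM0 (Subtype.ext h)
      have h27 : (27 : S.K) ≠ 0 := by norm_num
      obtain ⟨x, y, P', Q, hQ0, hPQ, hcube⟩ := exists_close_cube
        (nonScalar_of_isReg ht) hdc (div_ne_zero (mul_ne_zero h27 g.det_ne_zero) hM0)
      exact locF1_kappa_eq_zero_of_cube_eqs (containsMuP_of_le (le_sup_left : S.K ≤ E)) hv hl hl0
        hD hQ0 hMQ hM hPQ hcube u (IntermediateField.mem_adjoin_simple_self ℚ l) rfl
    · intro P hP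
      obtain ⟨A, hA⟩ := exists_place P
      obtain ⟨w, hw⟩ := exists_over (K := S.F) (A := A) hA.1
      have hwbad : ((S.m : ℕ) : 𝓞 S.F) ∉ w.asIdeal := fun h =>
        hP ((natCast_mem_iff_val hA _).mpr ((natCast_mem_iff_val hw _).mp h))
      by_cases hsplit : galPlace σ w = w
      swap
      · exact Or.inl ⟨A, hA, fun τ hτ => q8_of_moved hσ hw hsplit
          (IntermediateField.fixingSubgroup_antitone le_sup_left hτ.1) hτ.2⟩
      refine Or.inr ?_
      have hvA := S.over_underK hw
      -- the valuation of the invariant is a cube where it is not integral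
      have hcube : 1 < A.valuation (r : Qb) → ∃ y : Eˣ,
          A.valuation (r : Qb) = A.valuation (((y ^ 3 : Eˣ) : E) : Qb) := by
        intro h1
        obtain ⟨c, hc⟩ := hinert w hwbad hsplit
          (not_le.mp fun h => not_le.mpr h1 ((hvA.val_le_one_iff r).mpr h))
        obtain ⟨y, rfl⟩ := (S.underK w).valuation_surjective S.K c
        have hy0 : y ≠ 0 := by
          rintro rfl
          rw [map_zero, zero_pow three_ne_zero, eq_comm, _root_.map_eq_zero] at hc
          exact hr0 hc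
        refine ⟨Units.mk0 ⟨(y : Qb), (le_sup_left : _ ≤ E) y.2⟩
          (fun h => hy0 (Subtype.ext (by simpa using congrArg Subtype.val h))), ?_⟩
        rw [val_eq_of_valuation_eq hvA hr0 (pow_ne_zero 3 hy0) (by rw [map_pow, hc])]
        simp
      rcases lt_trichotomy (A.valuation U) 1 with hlt | heq | hgt
      · have e := congrArg A.valuation hru
        rw [map_mul, map_pow, Valuation.map_add_eq_of_lt_right _ (by rwa [map_one]), map_one,
          one_pow] at e
        have hUpos : 0 < A.valuation U := zero_lt_iff.mpr ((_root_.map_ne_zero _).mpr hU0)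
        obtain ⟨y, hy⟩ := hcube (by
          rw [eq_inv_of_mul_eq_one_left e]
          exact (one_lt_inv₀ hUpos).mpr hlt)
        have := (hA.val_eq_one_iff (y ^ 3 * u)).mp (by
          rw [Units.val_mul, MulMemClass.coe_mul, map_mul, ← hy]
          exact e)
        rw [Duality.Global.ord_mul, Duality.Global.ord_pow] at this
        omega
      · rw [(hA.val_eq_one_iff u).mp heq]
        exact dvd_zero 3
      · have e := congrArg A.valuation hru
        rw [map_mul, map_pow, Valuation.map_add_eq_of_lt_left _ (by rwa [map_one]), pow_two] at e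
        have e2 := mul_right_cancel₀ (ne_of_gt (zero_lt_one.trans hgt)) e
        obtain ⟨y, hy⟩ := hcube (by rw [e2]; exact hgt)
        rw [e2] at hy
        rw [(hA.val_eq_iff u (y ^ 3)).mp hy, Duality.Global.ord_pow]
        exact dvd_mul_right _ _
  obtain ⟨x, hx, hxn⟩ := exists_nm_sq hσ ht hl hsK hs hsl hz hzn
  set t := pIncl S (ProjGenLinGroup.mk g) with htdef
  have hT := isTorus_pIncl hσ ht
  have hd : t * x⁻¹ ∈ torus t := mul_mem (self_mem_torus t) (inv_mem hx)
  refine ⟨t * x⁻¹, ?_⟩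
  have e := hT.nm_mul hd hx
  rw [inv_mul_cancel_right, hxn, nm, pGal_pIncl hσ, pGal_pIncl hσ, mul_assoc] at e
  exact (mul_right_cancel e).symm

end Main

end FermatAgent.LTG.Classes

end
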