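import Fermat.Agent.LT.General.Classes.Torus
import Fermat.Agent.LT.Descent.Classes.Norm

set_option autoImplicit false

/-!
# Norms of twisted classes, general setup
-/

noncomputable section

open NumberField IsDedekindDomain
open scoped MatrixGroups

namespace FermatAgent.LTG.Classes

open Matrix
open FermatAgent.LT.TF (nm nm_conj IsTorus)
open FermatAgent.LT.Classes (pMap pMap_mk pGal pGal_mk ratioGL ratioGL_mul_scalar pRatio pRatio_mk
  IsReg lift₂ mk_lift₂ torus twStab mem_twStab OddVal oddVal_mk isSquare_det_mul_scalar cycMat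
  compMat mul_cycMat NonScalar exists_cyclic nonScalar_of_disc exists_eq_of_commute
  commute_of_commute det_poly exists_conj_compMat exists_conj_of_trace_det exists_anticomm
  coe_mul_scalar mk_eq_mk_iff_smul isReg_mk nonScalar_of_isReg centralizer_mul_scalar torus_mk
  mem_torus_mk self_mem_torus torus_comm torus_le_centralizer centralizer_cases
  mul_mem_torus_of_anticomm not_mem_torus_of_anticomm relIndex_eq_two)

variable {S : Setup} {σ : S.F ≃+* S.F}

local notation "M₂" => Matrix (Fin 2) (Fin 2)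

/-- The norm of a matrix. -/
abbrev gNm (σ : S.F ≃+* S.F) (d : GL (Fin 2) S.F) : GL (Fin 2) S.F :=
  d * gGal σ d * gGal σ (gGal σ d)

theorem nm_mk (d : GL (Fin 2) S.F) :
    nm (pGal σ) (ProjGenLinGroup.mk d) = ProjGenLinGroup.mk (gNm σ d) := by
  rw [nm, pGal_mk', pGal_mk', map_mul, map_mul]

theorem gGal_gNm (hσ : S.IsGalGen σ) (d : GL (Fin 2) S.F) :
    d * gGal σ (gNm σ d) = gNm σ d * d := by
  rw [gNm, map_mul, map_mul, gGal_three hσ]
  group

theorem pIncl_mem_torus {t z : PGL(2, S.K)} (hz : z ∈ torus t) :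
    pIncl S z ∈ torus (pIncl S t) := by
  induction t using ProjGenLinGroup.induction_on with | mk g =>
  obtain ⟨a, ha, rfl⟩ := mem_torus_mk.mp hz
  refine mem_torus_pIncl_mk.mpr ⟨gIncl S a, ?_, rfl⟩
  rw [coe_gIncl, coe_gIncl, ← map_mul, ← map_mul, ha]

theorem isSquare_pow_odd {x : WithZero (Multiplicative ℤ)} (hx : x ≠ 0) {e : ℕ} (he : Odd e) :
    IsSquare (x ^ e) ↔ IsSquare x := by
  obtain ⟨k, rfl⟩ := he
  constructor
  · rintro ⟨y, hy⟩
    refine ⟨y / x ^ k, ?_⟩
    rw [div_mul_div_comm, ← hy, ← pow_add, ← two_mul, pow_succ,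
      mul_div_cancel_left₀ _ (pow_ne_zero _ hx)]
  · rintro ⟨y, rfl⟩
    exact ⟨y ^ (2 * k + 1), by rw [← mul_pow]⟩

/-- Odd valuation at a place of `F` and at the place of `K` below. -/
theorem oddVal_pIncl (hσ : S.IsGalGen σ) {w : HeightOneSpectrum (𝓞 S.F)} {t : PGL(2, S.K)} :
    OddVal w (pIncl S t) ↔ OddVal (S.underK w) t := by
  induction t using ProjGenLinGroup.induction_on with | mk g =>
  rw [pIncl_mk, oddVal_mk, oddVal_mk, det_gIncl, valuation_pow_ramAt,
    isSquare_pow_odd ((_root_.map_ne_zero _).mpr g.det_ne_zero) (ramAt_odd hσ w)]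

theorem exists_norm_class (hσ : S.IsGalGen σ) {w : HeightOneSpectrum (𝓞 S.F)}
    {γ : PGL(2, S.F)} (hodd : OddVal w (nm (pGal σ) γ)) :
    ∃ (t : PGL(2, S.K)) (η : PGL(2, S.F)), OddVal (S.underK w) t ∧
      nm (pGal σ) (η⁻¹ * γ * pGal σ η) = pIncl S t := by
  induction γ using ProjGenLinGroup.induction_on with | mk d =>
  set N := gNm σ d with hN
  have hcomm := gGal_gNm hσ d
  have hfix : σ (N : M₂ S.F).trace = (N : M₂ S.F).trace ∧ σ (N : M₂ S.F).det = (N : M₂ S.F).det := by
    have e : gGal σ N = d⁻¹ * N * d := by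
      rw [mul_assoc, ← hcomm, inv_mul_cancel_left]
    rw [← trace_gGal, ← det_gGal, e]
    exact ⟨by rw [Units.val_mul, Units.val_mul, Matrix.trace_units_conj'],
      by rw [Units.val_mul, Units.val_mul, Matrix.det_units_conj']⟩
  obtain ⟨T, hT⟩ := exists_inclKF_eq hσ hfix.1
  obtain ⟨D, hD⟩ := exists_inclKF_eq hσ hfix.2
  have hD0 : (compMat T D).det ≠ 0 := by
    intro h0
    refine N.det_ne_zero ?_
    simp [compMat, Matrix.det_fin_two] at h0
    rw [← hD, h0, map_zero]
  set g := GeneralLinearGroup.mkOfDetNeZero (compMat T D) hD0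
  have hgt : (g : M₂ S.K).trace = T ∧ (g : M₂ S.K).det = D := by
    constructor <;> simp [g, compMat, Matrix.trace_fin_two, Matrix.det_fin_two]
  have hoddg : OddVal (S.underK w) (ProjGenLinGroup.mk g) := by
    rw [← oddVal_pIncl hσ (w := w), pIncl_mk, oddVal_mk, det_gIncl, hgt.2, hD]
    exact (oddVal_mk w N).mp (by rwa [nm_mk] at hodd)
  have hreg : IsReg (ProjGenLinGroup.mk g) := by
    intro h4
    refine hoddg ?_
    rw [pRatio_mk, ratioGL, hgt.1, hgt.2, div_eq_iff (by rw [← hgt.2]; exact g.det_ne_zero)] at h4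
    obtain ⟨u, hu⟩ := ProjGenLinGroup.mk_eq_mk_iff.mp (mk_lift₂ (ProjGenLinGroup.mk g)).symm
    rw [← hu, isSquare_det_mul_scalar, hgt.2]
    refine ⟨(S.underK w).valuation S.K (T / 2), ?_⟩
    rw [← map_mul]
    congr 1
    field_simp
    linear_combination -h4
  have hregF : NonScalar (gIncl S g : M₂ S.F) :=
    nonScalar_of_isReg (isReg_pIncl.mpr hreg)
  have hNs : NonScalar (N : M₂ S.F) := by
    refine nonScalar_of_disc ?_
    have h' := isReg_mk.mp (isReg_pIncl.mpr hreg : IsReg (ProjGenLinGroup.mk (gIncl S g)))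
    rwa [trace_gIncl, det_gIncl, hgt.1, hgt.2, hT, hD] at h'
  obtain ⟨P, hP⟩ := exists_conj_of_trace_det hNs hregF
    (by rw [trace_gIncl, hgt.1, hT]) (by rw [det_gIncl, hgt.2, hD])
  refine ⟨ProjGenLinGroup.mk g, (ProjGenLinGroup.mk P)⁻¹, hoddg, ?_⟩
  rw [nm_conj (pGal_three hσ), nm_mk, inv_inv, ← map_inv, ← map_mul, ← map_mul, ← hN, hP, pIncl_mk]

theorem isReg_of_oddVal {v : HeightOneSpectrum (𝓞 S.K)} {t : PGL(2, S.K)} (h : OddVal v t) :
    IsReg t := by
  induction t using ProjGenLinGroup.induction_on with | mk g =>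
  rw [isReg_mk]
  rw [oddVal_mk] at h
  intro h4
  refine h ⟨v.valuation S.K ((g : M₂ S.K).trace / 2), ?_⟩
  rw [← map_mul]
  congr 1
  field_simp
  linear_combination -h4

theorem oddVal_of_nm (hσ : S.IsGalGen σ) {w : HeightOneSpectrum (𝓞 S.F)}
    {δ : PGL(2, S.F)} {t : PGL(2, S.K)} (h : nm (pGal σ) δ = pIncl S t) :
    OddVal w (nm (pGal σ) δ) ↔ OddVal (S.underK w) t := by
  rw [h, oddVal_pIncl hσ]

theorem mem_torus_of_nm (hσ : S.IsGalGen σ) {δ : PGL(2, S.F)} {t : PGL(2, S.K)} (ht : IsReg t)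
    (h : nm (pGal σ) δ = pIncl S t) : δ ∈ torus (pIncl S t) := by
  induction t using ProjGenLinGroup.induction_on with | mk g =>
  induction δ using ProjGenLinGroup.induction_on with | mk d =>
  rw [nm_mk, pIncl_mk, mk_eq_mk_iff_smul] at h
  obtain ⟨c, hc⟩ := h
  have hcomm : (d : M₂ S.F) * (gGal σ (gNm σ d) : M₂ S.F) = (gNm σ d : M₂ S.F) * d :=
    congrArg Units.val (gGal_gNm hσ d)
  have hc0 : c ≠ 0 := by
    rintro rfl
    rw [zero_smul] at hc
    exact (gIncl S g).ne_zero hc.symm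
  have hσc : σ c • (gGal σ (gNm σ d) : M₂ S.F) = c • (gNm σ d : M₂ S.F) := by
    rw [hc, ← congrArg Units.val (gGal_gIncl hσ g), coe_gGal σ (gIncl S g), ← hc, coe_gGal]
    exact Matrix.ext fun i j => (map_mul σ c _).symm
  have h2 : σ c • ((gNm σ d : M₂ S.F) * d) = c • ((d : M₂ S.F) * (gNm σ d : M₂ S.F)) := by
    rw [← hcomm, ← Matrix.mul_smul, hσc, Matrix.mul_smul]
  have hcc : σ c = c := by
    refine gal_eq_of_sq hσ ?_
    have := congrArg Matrix.det h2
    rw [Matrix.det_smul, Matrix.det_smul, Matrix.det_mul, Matrix.det_mul, Fintype.card_fin] at this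
    refine mul_right_cancel₀ (mul_ne_zero (gNm σ d).det_ne_zero d.det_ne_zero) ?_
    linear_combination this
  rw [hcc] at h2
  refine mem_torus_pIncl_mk.mpr ⟨d, ?_, rfl⟩
  rw [← hc, Matrix.mul_smul, Matrix.smul_mul]
  exact h2.symm

theorem isConj_of_isConj_pIncl (hσ : S.IsGalGen σ) {t t' : PGL(2, S.K)} (ht : IsReg t)
    (h : IsConj (pIncl S t) (pIncl S t')) : IsConj t t' := by
  induction t using ProjGenLinGroup.induction_on with | mk g =>
  induction t' using ProjGenLinGroup.induction_on with | mk g' =>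
  obtain ⟨η, hη⟩ := isConj_iff.mp h
  induction η using ProjGenLinGroup.induction_on with | mk P =>
  rw [pIncl_mk, pIncl_mk, ← map_inv, ← map_mul, ← map_mul, mk_eq_mk_iff_smul] at hη
  obtain ⟨c, hc⟩ := hη
  rw [Units.val_mul, Units.val_mul] at hc
  have htr := congrArg Matrix.trace hc
  have hdt := congrArg Matrix.det hc
  rw [Matrix.trace_smul, smul_eq_mul, Matrix.trace_units_conj, trace_gIncl, trace_gIncl] at htr
  rw [Matrix.det_smul, Fintype.card_fin, Matrix.det_units_conj, det_gIncl, det_gIncl] at hdt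
  have hσc : σ c = c := by
    refine gal_eq_of_sq hσ ?_
    have := congrArg σ hdt
    rw [map_mul, map_pow, hσ.2, hσ.2] at this
    refine mul_right_cancel₀ (b := S.inclKF (g : M₂ S.K).det)
      ((_root_.map_ne_zero _).mpr g.det_ne_zero) ?_
    rw [this, hdt]
  obtain ⟨c₀, rfl⟩ := exists_inclKF_eq hσ hσc
  have hc0 : c₀ ≠ 0 := by
    rintro rfl
    rw [map_zero, zero_smul] at hc
    exact (gIncl S g').ne_zero hc.symm
  set g₁ := g * GeneralLinearGroup.scalar (Fin 2) (Units.mk0 c₀ hc0)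
  have e : ProjGenLinGroup.mk g = ProjGenLinGroup.mk g₁ :=
    ProjGenLinGroup.mk_eq_mk_iff.mpr ⟨_, rfl⟩
  have h1 : (g₁ : M₂ S.K).trace = (g' : M₂ S.K).trace := by
    refine S.inclKF.injective ?_
    rw [coe_mul_scalar, Matrix.trace_smul, smul_eq_mul, map_mul]
    exact htr
  have h2 : (g₁ : M₂ S.K).det = (g' : M₂ S.K).det := by
    refine S.inclKF.injective ?_
    rw [coe_mul_scalar, Matrix.det_smul, Fintype.card_fin, map_mul, map_pow]
    exact hdt
  have hg₁ : IsReg (ProjGenLinGroup.mk g₁) := e ▸ ht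
  have hg' : IsReg (ProjGenLinGroup.mk g') := by
    rw [isReg_mk, ← h1, ← h2]
    exact isReg_mk.mp hg₁
  obtain ⟨Q, hQ⟩ := exists_conj_of_trace_det (nonScalar_of_isReg hg₁) (nonScalar_of_isReg hg') h1 h2
  exact isConj_iff.mpr ⟨ProjGenLinGroup.mk Q, by rw [e, ← map_inv, ← map_mul, ← map_mul, hQ]⟩

theorem exists_twisted_conj (hσ : S.IsGalGen σ) {δ δ' : PGL(2, S.F)} {t : PGL(2, S.K)}
    (ht : IsReg t) (h : nm (pGal σ) δ = pIncl S t) (h' : nm (pGal σ) δ' = pIncl S t) :
    ∃ z ∈ torus (pIncl S t), δ' = z⁻¹ * δ * pGal σ z := by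
  have hT := isTorus_pIncl hσ ht
  have hd := mem_torus_of_nm hσ ht h
  have hd' := mem_torus_of_nm hσ ht h'
  have ha : δ' * δ⁻¹ ∈ torus (pIncl S t) := mul_mem hd' (inv_mem hd)
  have hn : nm (pGal σ) (δ' * δ⁻¹) = 1 := by
    have e := hT.nm_mul ha hd
    rw [inv_mul_cancel_right, h', h] at e
    exact mul_eq_right.mp e.symm
  obtain ⟨z, hz, hzz⟩ := hT.h90 _ ha hn
  refine ⟨z⁻¹, inv_mem hz, ?_⟩
  rw [inv_inv, map_inv, mul_assoc, hT.comm _ hd _ (inv_mem (hT.stable _ hz)), ← mul_assoc, ← hzz,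
    inv_mul_cancel_right]

theorem map_torus_le_twStab (hσ : S.IsGalGen σ) {δ : PGL(2, S.F)} {t : PGL(2, S.K)}
    (ht : IsReg t) (h : nm (pGal σ) δ = pIncl S t) :
    (torus t).map (pIncl S) ≤ twStab (pGal σ) δ := by
  rintro _ ⟨z, hz, rfl⟩
  rw [mem_twStab, pGal_pIncl hσ, mul_assoc,
    (isTorus_pIncl hσ ht).comm _ (mem_torus_of_nm hσ ht h) _ (pIncl_mem_torus hz),
    inv_mul_cancel_left]

theorem relIndex_twStab (hσ : S.IsGalGen σ) {δ : PGL(2, S.F)} {t : PGL(2, S.K)}
    (ht : IsReg t) (h : nm (pGal σ) δ = pIncl S t) :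
    ((torus t).map (pIncl S)).relIndex (twStab (pGal σ) δ) =
      (torus t).relIndex (Subgroup.centralizer {t}) := by
  have hT := isTorus_pIncl hσ ht
  have hd := mem_torus_of_nm hσ ht h
  have key1 : ∀ η ∈ twStab (pGal σ) δ, η ∈ torus (pIncl S t) → η ∈ (torus t).map (pIncl S) := by
    intro η hη hηT
    refine mem_map_torus_of_fixed hσ hηT ?_
    rw [mem_twStab, mul_assoc, hT.comm _ hd _ (hT.stable _ hηT), ← mul_assoc] at hη
    have := mul_eq_right.mp hη
    rwa [inv_mul_eq_one, eq_comm] at this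
  have key2 : ∀ η ∈ twStab (pGal σ) δ, η ∈ Subgroup.centralizer {pIncl S t} := by
    intro η hη
    rw [Subgroup.mem_centralizer_singleton_iff]
    have e := nm_conj (pGal_three hσ) η δ
    rw [mem_twStab.mp hη, h] at e
    conv_lhs => rw [e]
    group
  have key3 : (torus t).map (pIncl S) ≤ torus (pIncl S t) := by
    rintro _ ⟨z, hz, rfl⟩
    exact pIncl_mem_torus hz
  induction t using ProjGenLinGroup.induction_on with | mk g =>
  by_cases htr : (g : M₂ S.K).trace = 0
  · obtain ⟨w, hw⟩ := exists_anticomm (nonScalar_of_isReg ht) htr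
    have hwC : ProjGenLinGroup.mk w ∈ Subgroup.centralizer {ProjGenLinGroup.mk g} := by
      rw [Subgroup.mem_centralizer_singleton_iff, ← map_mul, ← map_mul, mk_eq_mk_iff_smul]
      exact ⟨-1, by rw [Units.val_mul, Units.val_mul, hw, neg_smul, one_smul, neg_neg]⟩
    have hwF : (gIncl S w : M₂ S.F) * (gIncl S g : M₂ S.F) =
        -((gIncl S g : M₂ S.F) * (gIncl S w : M₂ S.F)) := by
      rw [coe_gIncl, coe_gIncl, ← map_mul, hw, map_neg, map_mul]
    set W := pIncl S (ProjGenLinGroup.mk w) with hW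
    have hinv : ∀ x ∈ torus (pIncl S (ProjGenLinGroup.mk g)), x * W * x = W := by
      intro x hx
      obtain ⟨A, hA, rfl⟩ := mem_torus_pIncl_mk.mp hx
      obtain ⟨a, b, hab⟩ := exists_eq_of_commute (nonScalar_of_isReg (isReg_pIncl.mpr ht)) hA
      rw [hW, pIncl_mk, ← map_mul, ← map_mul]
      refine (mk_eq_mk_iff_smul.mpr ⟨a ^ 2 + b ^ 2 * (gIncl S g : M₂ S.F).det, ?_⟩).symm
      set G : M₂ S.F := (gIncl S g : M₂ S.F) with hG
      have hG2 : G * G = -G.det • (1 : M₂ S.F) := by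
        have ht0 : G 1 1 = -G 0 0 := by
          have := trace_gIncl (S := S) g
          rw [htr, map_zero, ← hG, Matrix.trace_fin_two] at this
          exact eq_neg_of_add_eq_zero_right this
        ext i j
        fin_cases i <;> fin_cases j <;>
          simp [Matrix.mul_apply, Fin.sum_univ_two, Matrix.det_fin_two, ht0] <;> ring
      have hw' : G * (gIncl S w : M₂ S.F) = -((gIncl S w : M₂ S.F) * G) := by
        rw [hwF, neg_neg]
      rw [Units.val_mul, Units.val_mul, hab]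
      simp only [Matrix.add_mul, Matrix.mul_add, Matrix.smul_mul, Matrix.mul_smul, Matrix.one_mul,
        Matrix.mul_one, hw', Matrix.neg_mul, smul_neg, Matrix.mul_assoc, hG2, neg_smul,
        Matrix.mul_neg, neg_neg, smul_smul, smul_add]
      module
    have hd2 : nm (pGal σ) (δ * δ) = 1 := by
      rw [hT.nm_mul hd hd, h, ← map_mul, ← map_mul, ← map_one (pIncl S)]
      refine congrArg _ (ProjGenLinGroup.mk_eq_one.mpr ?_)
      rw [GeneralLinearGroup.center_eq_range_scalar]
      refine ⟨Units.mk0 (-(g : M₂ S.K).det) (neg_ne_zero.mpr g.det_ne_zero), Units.ext ?_⟩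
      have ht0 : (g : M₂ S.K) 1 1 = -(g : M₂ S.K) 0 0 := by
        rw [Matrix.trace_fin_two] at htr
        exact eq_neg_of_add_eq_zero_right htr
      ext i j
      fin_cases i <;> fin_cases j <;>
        simp [Matrix.mul_apply, Fin.sum_univ_two, Matrix.det_fin_two, ht0] <;> ring
    obtain ⟨y, hy, hyy⟩ := hT.h90 _ (mul_mem hd hd) hd2
    have hσz : pGal σ y⁻¹ = y⁻¹ * (δ * δ) := by
      rw [hyy, inv_mul_cancel_left, map_inv]
    set η := W * y⁻¹
    have hη : η ∈ twStab (pGal σ) δ := by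
      rw [mem_twStab, map_mul, hW, pGal_pIncl hσ, ← hW, hσz]
      have e : W⁻¹ * δ * W = δ⁻¹ := by
        rw [mul_assoc, inv_mul_eq_iff_eq_mul, eq_mul_inv_iff_mul_eq]
        exact hinv δ hd
      calc (W * y⁻¹)⁻¹ * δ * (W * (y⁻¹ * (δ * δ))) = y * (W⁻¹ * δ * W) * y⁻¹ * (δ * δ) := by group
        _ = δ := by rw [e, hT.comm _ hy _ (inv_mem hd)]; group
    have hηT : η ∉ torus (pIncl S (ProjGenLinGroup.mk g)) := by
      intro hin
      have hWin := mul_mem hin hy
      rw [inv_mul_cancel_right, hW, pIncl_mk, pIncl_mk] at hWin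
      exact not_mem_torus_of_anticomm hwF hWin
    have hR : (torus (ProjGenLinGroup.mk g)).relIndex
        (Subgroup.centralizer {ProjGenLinGroup.mk g}) = 2 :=
      relIndex_eq_two le_rfl (fun b _ hb => hb) hwC (not_mem_torus_of_anticomm hw)
        (fun b hb hb' => mul_mem_torus_of_anticomm hwC (not_mem_torus_of_anticomm hw) hb hb')
    rw [hR]
    refine relIndex_eq_two key3 key1 hη hηT fun b hb hb' => ?_
    have hη2 := key2 η hη
    have hb2 := key2 b hb
    rw [pIncl_mk] at hη2 hb2 hηT hb' ⊢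
    exact mul_mem_torus_of_anticomm hη2 hηT hb2 hb'
  · have hc : ∀ x ∈ Subgroup.centralizer {pIncl S (ProjGenLinGroup.mk g)},
        x ∈ torus (pIncl S (ProjGenLinGroup.mk g)) := by
      intro x hx
      induction x using ProjGenLinGroup.induction_on with | mk a =>
      rw [pIncl_mk] at hx
      rcases centralizer_cases hx with hA | ⟨-, h0⟩
      · exact mem_torus_pIncl_mk.mpr ⟨a, hA, rfl⟩
      · rw [trace_gIncl, map_eq_zero] at h0
        exact absurd h0 htr
    rw [Subgroup.relIndex_eq_one.mpr fun η hη => key1 η hη (hc η (key2 η hη)),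
      Subgroup.relIndex_eq_one.mpr fun x hx => ?_]
    induction x using ProjGenLinGroup.induction_on with | mk a =>
    rcases centralizer_cases hx with hA | ⟨-, h0⟩
    · exact mem_torus_mk.mpr ⟨a, hA, rfl⟩
    · exact absurd h0 htr

open Classical in
theorem relIndex_torus {t : PGL(2, S.K)} (ht : IsReg t) :
    (torus t).relIndex (Subgroup.centralizer {t}) = if pRatio t = 0 then 2 else 1 := by
  induction t using ProjGenLinGroup.induction_on with | mk g =>
  by_cases htr : (g : M₂ S.K).trace = 0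
  · rw [if_pos (by rw [pRatio_mk, ratioGL, htr]; simp)]
    obtain ⟨w, hw⟩ := exists_anticomm (nonScalar_of_isReg ht) htr
    have hwC : ProjGenLinGroup.mk w ∈ Subgroup.centralizer {ProjGenLinGroup.mk g} := by
      rw [Subgroup.mem_centralizer_singleton_iff, ← map_mul, ← map_mul, mk_eq_mk_iff_smul]
      exact ⟨-1, by rw [Units.val_mul, Units.val_mul, hw, neg_smul, one_smul, neg_neg]⟩
    exact relIndex_eq_two le_rfl (fun b _ hb => hb) hwC (not_mem_torus_of_anticomm hw)
      (fun b hb hb' => mul_mem_torus_of_anticomm hwC (not_mem_torus_of_anticomm hw) hb hb')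
  · rw [if_neg (by rw [pRatio_mk, ratioGL]; simp [htr, g.det_ne_zero])]
    refine Subgroup.relIndex_eq_one.mpr fun x hx => ?_
    induction x using ProjGenLinGroup.induction_on with | mk a =>
    rcases centralizer_cases hx with hA | ⟨-, h0⟩
    · exact mem_torus_mk.mpr ⟨a, hA, rfl⟩
    · exact absurd h0 htr

end FermatAgent.LTG.Classes

end
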