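import Fermat.Agent.LT.General.Classes.Norm
import Fermat.Agent.LT.General.Geom.Local.InertField
import Fermat.Agent.LT.Descent.Geom.Parity

set_option autoImplicit false

/-!
# An odd word leaves only the elements with norm of odd valuation

At a good place `v` of `K` with three places over it, local kernels of Hecke powers with odd total
exponent do not vanish only at elements whose norm has determinant of odd valuation at `v`.
-/

noncomputable section

open NumberField IsDedekindDomain WithZero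
open scoped MatrixGroups

namespace FermatAgent.LTG.Classes

open Matrix
open FermatAgent.LT (GLv LCos Cosets GAf lKer locHecke lKer_locHecke_pow coordAt coordAt_smul
  coordAt_mk compAt compAt_rationalMat compAt_galGAf rationalMat galCoset galGAf galLoc galPlace
  cosDist_mk galInt locMat valued_loc loc valuation_gal even_log_det_add_depth)
open FermatAgent.LT.Inert (depth heckeStep heckeStep_iterate_parity unitFun)
open FermatAgent.LT.TF (nm)
open FermatAgent.LT.Classes (pGal OddVal oddVal_mk)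

section Local

variable {L : Type*} [Field L] [NumberField L] {v : HeightOneSpectrum (𝓞 L)} {𝔫 : Ideal (𝓞 L)}

/-- A nonzero kernel of a Hecke power fixes the parity of the valuations of determinants. -/
theorem even_of_lKer_locHecke (hv : ¬ 𝔫 ≤ v.asIdeal) {n : ℕ} {γ : GL (Fin 2) L} {a b : GLv v}
    (h : lKer (locHecke 𝔫 v ^ n) (a : LCos 𝔫 v) (locMat v γ • (b : LCos 𝔫 v)) ≠ 0) :
    Even (log (v.valuation L (γ : Matrix (Fin 2) (Fin 2) L).det) +
      log (Valued.v (b : Matrix (Fin 2) (Fin 2) (v.adicCompletion L)).det) -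
      log (Valued.v (a : Matrix (Fin 2) (Fin 2) (v.adicCompletion L)).det) + (n : ℤ)) := by
  rw [lKer_locHecke_pow hv, MulAction.Quotient.smul_coe, smul_eq_mul, cosDist_mk hv] at h
  have hd := heckeStep_iterate_parity _ _ h
  obtain ⟨k, hk⟩ := even_log_det_add_depth (a⁻¹ * (locMat v γ * b))
  have ha : Valued.v (a : Matrix (Fin 2) (Fin 2) (v.adicCompletion L)).det ≠ 0 :=
    (_root_.map_ne_zero _).mpr a.det_ne_zero
  have hb : Valued.v (b : Matrix (Fin 2) (Fin 2) (v.adicCompletion L)).det ≠ 0 :=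
    (_root_.map_ne_zero _).mpr b.det_ne_zero
  have hg : v.valuation L (γ : Matrix (Fin 2) (Fin 2) L).det ≠ 0 :=
    (_root_.map_ne_zero _).mpr γ.det_ne_zero
  have hγ : ((locMat v γ : GLv v) : Matrix (Fin 2) (Fin 2) (v.adicCompletion L)).det =
      loc v (γ : Matrix (Fin 2) (Fin 2) L).det := (RingHom.map_det (loc v) _).symm
  have e : Valued.v ((a⁻¹ * (locMat v γ * b) : GLv v) :
      Matrix (Fin 2) (Fin 2) (v.adicCompletion L)).det =
      (Valued.v (a : Matrix (Fin 2) (Fin 2) (v.adicCompletion L)).det)⁻¹ *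
        (v.valuation L (γ : Matrix (Fin 2) (Fin 2) L).det *
          Valued.v (b : Matrix (Fin 2) (Fin 2) (v.adicCompletion L)).det) := by
    rw [Units.val_mul, Units.val_mul, Matrix.det_mul, Matrix.det_mul, Matrix.coe_units_inv,
      Matrix.det_nonsing_inv, Ring.inverse_eq_inv', map_mul, map_mul, map_inv₀, hγ, valued_loc]
  rw [e, log_mul (inv_ne_zero ha) (mul_ne_zero hg hb), log_mul hg hb, log_inv] at hk
  have h2 : Even ((depth (v.adicCompletionIntegers L) (a⁻¹ * (locMat v γ * b)) : ℤ) + (n : ℤ)) := by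
    rw [← Nat.cast_add, Int.even_coe_nat, Nat.even_iff]
    exact hd
  obtain ⟨j, hj⟩ := h2
  exact ⟨k - (depth (v.adicCompletionIntegers L) (a⁻¹ * (locMat v γ * b)) : ℤ) + j, by
    linarith⟩

theorem not_isSquare_of_odd_log {x : ℤᵐ⁰} (hx : x ≠ 0) (h : Odd (log x)) : ¬ IsSquare x :=
  fun hsq => Int.not_even_iff_odd.mpr h (FermatAgent.LT.isSquare_even_log hx hsq)

end Local

variable {S : Setup} {σ : S.F ≃+* S.F}

local notation "M₂" => Matrix (Fin 2) (Fin 2)

/-- At a good place, a residue degree one over `K` means that the place moves. -/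
theorem moved_of_absNorm_eq (hσ : S.IsGalGen σ) {w : HeightOneSpectrum (𝓞 S.F)}
    (hw : (S.m : 𝓞 S.F) ∉ w.asIdeal)
    (h : Ideal.absNorm w.asIdeal = Ideal.absNorm (S.underK w).asIdeal) : galPlace σ w ≠ w := by
  intro hfix
  obtain ⟨x, hx⟩ := exists_gal_moves hσ hw
  have := FermatAgent.CFT.finite_quotient_prime w
  have := FermatAgent.CFT.finite_quotient_prime (S.underK w)
  rw [← FermatAgent.CFT.natCard_quotient_eq_absNorm,
    ← FermatAgent.CFT.natCard_quotient_eq_absNorm] at h
  let f := Ideal.quotientMap w.asIdeal S.inclInt (le_refl (S.underK w).asIdeal)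
  have hf : Function.Bijective f :=
    (Nat.bijective_iff_injective_and_card f).mpr
      ⟨Ideal.quotientMap_injective' (H := le_rfl) le_rfl, h.symm⟩
  obtain ⟨k', hk'⟩ := hf.2 (Ideal.Quotient.mk _ x)
  obtain ⟨b, rfl⟩ := Ideal.Quotient.mk_surjective k'
  have hb : S.inclInt b - x ∈ w.asIdeal :=
    Ideal.Quotient.eq.mp (Ideal.quotientMap_mk.symm.trans hk')
  refine hx ?_
  have h1 : galInt σ (S.inclInt b - x) ∈ w.asIdeal := (gal_mem_iff hfix _).mpr hb
  rw [map_sub, S.galInt_inclInt hσ] at h1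
  simpa using sub_mem hb h1

open Classical in
/-- The letters over `v` are those at the three places over it. -/
theorem count_underK_eq (hσ : S.IsGalGen σ) {w₀ : HeightOneSpectrum (𝓞 S.F)}
    (hne : galPlace σ w₀ ≠ w₀) (l : List (HeightOneSpectrum (𝓞 S.F))) :
    l.countP (fun w => S.underK w = S.underK w₀) =
      l.count w₀ + l.count (galPlace σ w₀) + l.count (galPlace σ (galPlace σ w₀)) := by
  obtain ⟨h2, h3⟩ := galPlace_moved hσ hne
  induction l with
  | nil => simp
  | cons u l ih =>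
    rw [List.countP_cons, List.count_cons, List.count_cons, List.count_cons, ih]
    simp only [decide_eq_true_eq, beq_iff_eq]
    by_cases hu : S.underK u = S.underK w₀
    · rw [if_pos hu]
      rcases galPlace_orbit hσ hu with rfl | rfl | rfl <;>
        simp [hne, hne.symm, h2, h2.symm, h3, h3.symm] <;> omega
    · have e1 : u ≠ w₀ := fun e => hu (e ▸ rfl)
      have e2 : u ≠ galPlace σ w₀ := fun e => hu (e ▸ S.underK_galPlace hσ w₀)
      have e3 : u ≠ galPlace σ (galPlace σ w₀) := fun e =>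
        hu (e ▸ (S.underK_galPlace hσ _).trans (S.underK_galPlace hσ w₀))
      simp [hu, e1, e2, e3]

open Classical in
/-- **Parity on `F`.** -/
theorem oddVal_nm_of_lKer (hσ : S.IsGalGen σ) {𝔫 : Ideal (𝓞 S.F)}
    {w₀ : HeightOneSpectrum (𝓞 S.F)} (hne : galPlace σ w₀ ≠ w₀)
    (hgood : ∀ w, S.underK w = S.underK w₀ → ¬ 𝔫 ≤ w.asIdeal)
    {l : List (HeightOneSpectrum (𝓞 S.F))}
    (hodd : Odd (l.countP fun w => S.underK w = S.underK w₀))
    (g : GL (Fin 2) S.F) {y : Cosets 𝔫}
    (hker : ∀ w, S.underK w = S.underK w₀ →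
      lKer (locHecke 𝔫 w ^ l.count w) (coordAt w y)
        (coordAt w (rationalMat g • galCoset σ y)) ≠ 0) :
    OddVal w₀ (nm (pGal σ) (ProjGenLinGroup.mk g)) := by
  set E : HeightOneSpectrum (𝓞 S.F) → ℤ := fun w =>
    log (Valued.v ((compAt w y.out : GLv w) : M₂ (w.adicCompletion S.F)).det) with hE
  have key : ∀ w, S.underK w = S.underK w₀ →
      Even (log (w.valuation S.F (g : M₂ S.F).det) + E (galPlace σ w) - E w + (l.count w : ℤ)) := by
    intro w hw
    have h := hker w hw
    rw [coordAt_smul, compAt_rationalMat, galCoset, coordAt_mk] at h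
    rw [← QuotientGroup.out_eq' y, coordAt_mk, QuotientGroup.out_eq'] at h
    have h' := even_of_lKer_locHecke (hgood w hw) h
    have hd : ((compAt w (galGAf σ y.out) : GLv w) : M₂ (w.adicCompletion S.F)).det =
        galLoc σ w ((compAt (galPlace σ w) y.out : GLv (galPlace σ w)) :
          M₂ ((galPlace σ w).adicCompletion S.F)).det := by
      rw [compAt_galGAf]; exact (RingHom.map_det _ _).symm
    rw [hd, FermatAgent.LT.CO.valued_galLoc] at h'
    exact h'
  obtain ⟨j₁, h1⟩ := key w₀ rfl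
  obtain ⟨j₂, h2⟩ := key (galPlace σ w₀) (S.underK_galPlace hσ w₀)
  obtain ⟨j₃, h3⟩ := key (galPlace σ (galPlace σ w₀))
    ((S.underK_galPlace hσ _).trans (S.underK_galPlace hσ w₀))
  rw [galPlace_cube hσ w₀] at h3
  rw [count_underK_eq hσ hne] at hodd
  obtain ⟨i, hi⟩ := hodd
  have hdet : ((gNm σ g : GL (Fin 2) S.F) : M₂ S.F).det =
      (g : M₂ S.F).det * σ (g : M₂ S.F).det * σ (σ (g : M₂ S.F).det) := by
    rw [gNm, Units.val_mul, Units.val_mul, Matrix.det_mul, Matrix.det_mul, det_gGal, det_gGal,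
      det_gGal]
  have hg0 : ∀ u : HeightOneSpectrum (𝓞 S.F), u.valuation S.F (g : M₂ S.F).det ≠ 0 := fun u =>
    (_root_.map_ne_zero _).mpr g.det_ne_zero
  rw [nm_mk, oddVal_mk, hdet, map_mul, map_mul, valuation_gal, valuation_gal, valuation_gal]
  refine not_isSquare_of_odd_log (mul_ne_zero (mul_ne_zero (hg0 _) (hg0 _)) (hg0 _)) ?_
  rw [log_mul (mul_ne_zero (hg0 _) (hg0 _)) (hg0 _), log_mul (hg0 _) (hg0 _)]
  refine ⟨j₁ + j₂ + j₃ - i - 1, ?_⟩
  have hi' := congrArg (Nat.cast : ℕ → ℤ) hi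
  push_cast at hi'
  linarith

/-- **Parity on `K`.** -/
theorem oddVal_of_lKer {𝔫 : Ideal (𝓞 S.K)} {v : HeightOneSpectrum (𝓞 S.K)}
    (hv : ¬ 𝔫 ≤ v.asIdeal) {n : ℕ} (hn : Odd n) (g : GL (Fin 2) S.K) {y : Cosets 𝔫}
    (hker : lKer (locHecke 𝔫 v ^ n) (coordAt v y) (coordAt v (rationalMat g • y)) ≠ 0) :
    OddVal v (ProjGenLinGroup.mk g) := by
  rw [coordAt_smul, compAt_rationalMat, ← QuotientGroup.out_eq' y, coordAt_mk] at hker
  obtain ⟨k, hk⟩ := even_of_lKer_locHecke hv hker
  obtain ⟨i, hi⟩ := hn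
  rw [oddVal_mk]
  refine not_isSquare_of_odd_log ((_root_.map_ne_zero _).mpr g.det_ne_zero) ⟨k - i - 1, ?_⟩
  have hi' := congrArg (Nat.cast : ℕ → ℤ) hi
  push_cast at hi'
  linarith

end FermatAgent.LTG.Classes

end
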