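import Fermat.Agent.LT.General.Classes.Galois

set_option autoImplicit false

/-!
# The tori over `F` of regular elements over `K`, general setup
-/

noncomputable section

open NumberField IsDedekindDomain
open scoped MatrixGroups

namespace FermatAgent.LTG.Classes

open Matrix
open FermatAgent.LT.TF (nm nm_conj IsTorus)
open FermatAgent.LT.Classes (pMap pMap_mk pGal pGal_mk ratioGL ratioGL_mul_scalar pRatio pRatio_mk
  IsReg lift₂ mk_lift₂ torus twStab mem_twStab OddVal oddVal_mk isSquare_det_mul_scalar cycMat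
  compMat mul_cycMat NonScalar exists_cyclic nonScalar_of_disc exists_eq_of_commute
  commute_of_commute det_poly exists_conj_compMat exists_conj_of_trace_det exists_anticomm
  coe_mul_scalar mk_eq_mk_iff_smul isReg_mk nonScalar_of_isReg centralizer_mul_scalar torus_mk
  mem_torus_mk self_mem_torus torus_comm torus_le_centralizer centralizer_cases)

variable {S : Setup} {σ : S.F ≃+* S.F}

local notation "Qb" => AlgebraicClosure ℚ
local notation "M₂" => Matrix (Fin 2) (Fin 2)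

/-- Matrices of `K` in those of `F`. -/
abbrev gIncl (S : Setup) : GL (Fin 2) S.K →* GL (Fin 2) S.F :=
  GeneralLinearGroup.map S.inclKF.toRingHom

/-- The automorphism on matrices. -/
abbrev gGal (σ : S.F ≃+* S.F) : GL (Fin 2) S.F →* GL (Fin 2) S.F :=
  GeneralLinearGroup.map σ.toRingHom

theorem coe_gIncl (g : GL (Fin 2) S.K) :
    (gIncl S g : M₂ S.F) = S.inclKF.toRingHom.mapMatrix (g : M₂ S.K) := rfl

theorem coe_gGal (σ : S.F ≃+* S.F) (g : GL (Fin 2) S.F) :
    (gGal σ g : M₂ S.F) = σ.toRingHom.mapMatrix (g : M₂ S.F) := rfl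

theorem trace_gIncl (g : GL (Fin 2) S.K) :
    (gIncl S g : M₂ S.F).trace = S.inclKF (g : M₂ S.K).trace := by
  simp [Matrix.trace_fin_two]

theorem det_gIncl (g : GL (Fin 2) S.K) :
    (gIncl S g : M₂ S.F).det = S.inclKF (g : M₂ S.K).det := by
  simp [Matrix.det_fin_two]

theorem trace_gGal (σ : S.F ≃+* S.F) (g : GL (Fin 2) S.F) :
    (gGal σ g : M₂ S.F).trace = σ (g : M₂ S.F).trace := by
  simp [Matrix.trace_fin_two]

theorem det_gGal (σ : S.F ≃+* S.F) (g : GL (Fin 2) S.F) :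
    (gGal σ g : M₂ S.F).det = σ (g : M₂ S.F).det := by
  simp [Matrix.det_fin_two]

theorem pIncl_mk (g : GL (Fin 2) S.K) :
    pIncl S (ProjGenLinGroup.mk g) = ProjGenLinGroup.mk (gIncl S g) := rfl

theorem pGal_mk' (g : GL (Fin 2) S.F) :
    pGal σ (ProjGenLinGroup.mk g) = ProjGenLinGroup.mk (gGal σ g) := rfl

theorem pRatio_pIncl (t : PGL(2, S.K)) : pRatio (pIncl S t) = S.inclKF (pRatio t) := by
  induction t using ProjGenLinGroup.induction_on with | mk g =>
  rw [pIncl_mk, pRatio_mk, pRatio_mk, ratioGL, ratioGL, trace_gIncl, det_gIncl, map_div₀, map_pow]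

theorem isReg_pIncl {t : PGL(2, S.K)} : IsReg (pIncl S t) ↔ IsReg t := by
  rw [IsReg, IsReg, pRatio_pIncl, ← map_ofNat S.inclKF 4]
  exact S.inclKF.injective.ne_iff

theorem gGal_gIncl (hσ : S.IsGalGen σ) (g : GL (Fin 2) S.K) :
    gGal σ (gIncl S g) = gIncl S g :=
  Units.ext (Matrix.ext fun i j => hσ.2 ((g : M₂ S.K) i j))

theorem pGal_pIncl (hσ : S.IsGalGen σ) (t : PGL(2, S.K)) : pGal σ (pIncl S t) = pIncl S t := by
  induction t using ProjGenLinGroup.induction_on with | mk g =>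
  rw [pIncl_mk, pGal_mk', gGal_gIncl hσ]

theorem gGal_three (hσ : S.IsGalGen σ) (g : GL (Fin 2) S.F) : gGal σ (gGal σ (gGal σ g)) = g :=
  Units.ext (Matrix.ext fun i j => gal_three hσ ((g : M₂ S.F) i j))

theorem pGal_three (hσ : S.IsGalGen σ) (g : PGL(2, S.F)) :
    pGal σ (pGal σ (pGal σ g)) = g := by
  induction g using ProjGenLinGroup.induction_on with | mk g =>
  rw [pGal_mk', pGal_mk', pGal_mk', gGal_three hσ]

theorem exists_gIncl_eq (hσ : S.IsGalGen σ) {g : GL (Fin 2) S.F} (h : gGal σ g = g) :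
    ∃ g₀ : GL (Fin 2) S.K, gIncl S g₀ = g := by
  choose y hy using fun i j => exists_inclKF_eq hσ (x := (g : M₂ S.F) i j)
    (congrArg (fun u : GL (Fin 2) S.F => (u : M₂ S.F) i j) h)
  set Y : M₂ S.K := Matrix.of y with hY
  have hd : Y.det ≠ 0 := by
    intro h0
    refine g.det_ne_zero ?_
    rw [show (g : M₂ S.F) = S.inclKF.toRingHom.mapMatrix Y from
      Matrix.ext fun i j => (hy i j).symm, ← RingHom.map_det, h0, map_zero]
  exact ⟨GeneralLinearGroup.mkOfDetNeZero _ hd, Units.ext (Matrix.ext hy)⟩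

/-- A number with fixed square is fixed. -/
theorem gal_eq_of_sq (hσ : S.IsGalGen σ) {c : S.F} (h : σ c ^ 2 = c ^ 2) : σ c = c := by
  rcases sq_eq_sq_iff_eq_or_eq_neg.mp h with h1 | h1
  · exact h1
  · have h3 := gal_three hσ c
    rw [h1, map_neg, h1, neg_neg, h1] at h3
    have h0 : (2 : S.F) * c = 0 := by linear_combination -h3
    rw [(mul_eq_zero.mp h0).resolve_left two_ne_zero, map_zero]

theorem mem_torus_pIncl_mk {g : GL (Fin 2) S.K} {x : PGL(2, S.F)} :
    x ∈ torus (pIncl S (ProjGenLinGroup.mk g)) ↔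
      ∃ a : GL (Fin 2) S.F, (a : M₂ S.F) * (gIncl S g : M₂ S.F) = (gIncl S g : M₂ S.F) * a ∧
        ProjGenLinGroup.mk a = x := by
  rw [pIncl_mk, mem_torus_mk]

/-- An invariant of norm one in the commutant is `Z / σ Z`. -/
theorem exists_commutant_h90 (hσ : S.IsGalGen σ) {g : GL (Fin 2) S.K}
    (hg : NonScalar (gIncl S g : M₂ S.F)) {A : M₂ S.F}
    (hA : A * (gIncl S g : M₂ S.F) = (gIncl S g : M₂ S.F) * A)
    (hN : A * σ.toRingHom.mapMatrix A * σ.toRingHom.mapMatrix (σ.toRingHom.mapMatrix A) = 1) :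
    ∃ Z : M₂ S.F, Z.det ≠ 0 ∧ Z * (gIncl S g : M₂ S.F) = (gIncl S g : M₂ S.F) * Z ∧
      A * σ.toRingHom.mapMatrix Z = Z := by
  set T : M₂ S.F := (gIncl S g : M₂ S.F) with hT
  set Φ := σ.toRingHom.mapMatrix (m := Fin 2) with hΦ
  have hΦT : Φ T = T := congrArg Units.val (gGal_gIncl hσ g)
  have hΦA : Φ A * T = T * Φ A := by rw [← hΦT, ← map_mul, hA, map_mul]
  have hB : A * Φ A * T = T * (A * Φ A) := by
    rw [Matrix.mul_assoc, hΦA, ← Matrix.mul_assoc, hA, Matrix.mul_assoc]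
  obtain ⟨a, b, hab⟩ := exists_eq_of_commute hg hA
  obtain ⟨a', b', hab'⟩ := exists_eq_of_commute hg hB
  obtain ⟨l, hl⟩ := IsAlgClosed.exists_root
    (Polynomial.X ^ 2 - Polynomial.C ((T.trace : S.F) : Qb) * Polynomial.X +
      Polynomial.C ((T.det : S.F) : Qb) : Polynomial Qb) (by
    intro h
    have := congrArg (fun p : Polynomial Qb => p.coeff 2) (Polynomial.eq_C_of_degree_eq_zero h)
    simp [Polynomial.coeff_C] at this)
  simp only [Polynomial.IsRoot.def, Polynomial.eval_add, Polynomial.eval_sub, Polynomial.eval_mul,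
    Polynomial.eval_pow, Polynomial.eval_X, Polynomial.eval_C] at hl
  obtain ⟨θ, h1, h2⟩ := exists_apply_ne_zero hσ ((a : Qb) + (b : Qb) * l)
    ((a' : Qb) + (b' : Qb) * l) ((a : Qb) + (b : Qb) * ((T.trace : S.F) - l))
    ((a' : Qb) + (b' : Qb) * ((T.trace : S.F) - l))
  set Z : M₂ S.F := θ • (1 : M₂ S.F) + σ θ • A + σ (σ θ) • (A * Φ A) with hZ
  have hZ' : Z = (θ + σ θ * a + σ (σ θ) * a') • (1 : M₂ S.F) +
      (σ θ * b + σ (σ θ) * b') • T := by
    rw [hZ, hab', hab]
    module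
  refine ⟨Z, ?_, ?_, ?_⟩
  · rw [hZ', det_poly]
    intro h0
    have e := congrArg (fun x : S.F => (x : Qb)) h0
    simp only [IntermediateField.coe_add, IntermediateField.coe_mul, IntermediateField.coe_zero,
      SubmonoidClass.coe_pow] at e
    rcases mul_eq_zero.mp (show ((θ : Qb) + ((a : Qb) + (b : Qb) * l) * (σ θ : Qb) +
          ((a' : Qb) + (b' : Qb) * l) * (σ (σ θ) : Qb)) *
        ((θ : Qb) + ((a : Qb) + (b : Qb) * ((T.trace : S.F) - l)) * (σ θ : Qb) +
          ((a' : Qb) + (b' : Qb) * ((T.trace : S.F) - l)) * (σ (σ θ) : Qb)) = 0 by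
      linear_combination e - ((σ θ : Qb) * b + (σ (σ θ) : Qb) * b') ^ 2 * hl) with h | h
    · exact h1 h
    · exact h2 h
  · rw [hZ]
    simp only [Matrix.add_mul, Matrix.mul_add, Matrix.smul_mul, Matrix.mul_smul, Matrix.one_mul,
      Matrix.mul_one, hA, hB]
  · have hs : ∀ (c : S.F) (M : M₂ S.F), Φ (c • M) = σ c • Φ M := fun c M =>
      Matrix.ext fun i j => map_mul σ c (M i j)
    rw [hZ, map_add, map_add, hs, hs, hs, map_one, map_mul, gal_three hσ θ]
    simp only [Matrix.mul_add, Matrix.mul_smul, Matrix.mul_one, ← Matrix.mul_assoc]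
    rw [hN]
    abel

theorem isTorus_pIncl (hσ : S.IsGalGen σ) {t : PGL(2, S.K)} (ht : IsReg t) :
    IsTorus (pGal σ) (torus (pIncl S t)) := by
  induction t using ProjGenLinGroup.induction_on with | mk g =>
  have ht' : IsReg (pIncl S (ProjGenLinGroup.mk g)) := isReg_pIncl.mpr ht
  have hg : NonScalar (gIncl S g : M₂ S.F) := nonScalar_of_isReg ht'
  refine ⟨fun a ha b hb => torus_comm ht' ha hb, fun a ha => ?_, fun a ha hn => ?_⟩
  · obtain ⟨A, hA, rfl⟩ := mem_torus_pIncl_mk.mp ha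
    refine mem_torus_pIncl_mk.mpr ⟨gGal σ A, ?_, rfl⟩
    have h := congrArg (fun M : M₂ S.F => σ.toRingHom.mapMatrix M) hA
    simp only [map_mul] at h
    rwa [← coe_gGal, ← coe_gGal, gGal_gIncl hσ] at h
  · obtain ⟨A, hA, rfl⟩ := mem_torus_pIncl_mk.mp ha
    rw [nm, pGal_mk', pGal_mk', ← map_mul, ← map_mul, ← map_one ProjGenLinGroup.mk,
      mk_eq_mk_iff_smul] at hn
    obtain ⟨c, hc⟩ := hn
    rw [Units.val_mul, Units.val_mul, Units.val_one] at hc
    set N : M₂ S.F := (A : M₂ S.F) * (gGal σ A : M₂ S.F) * (gGal σ (gGal σ A) : M₂ S.F)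
    set d := (A : M₂ S.F).det with hd_def
    -- `c • N = 1`
    have hdet : c ^ 2 * (d * σ d * σ (σ d)) = 1 := by
      have := congrArg Matrix.det hc
      rwa [Matrix.det_smul, Fintype.card_fin, Matrix.det_mul, Matrix.det_mul, det_gGal, det_gGal,
        det_gGal, Matrix.det_one] at this
    have hcs : σ c = c := by
      refine gal_eq_of_sq hσ ?_
      have h2 := congrArg σ hdet
      rw [map_mul, map_mul, map_mul, map_pow, map_one, gal_three hσ d] at h2
      apply mul_right_cancel₀ (b := d * σ d * σ (σ d))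
        (fun h => by rw [h, mul_zero] at hdet; exact zero_ne_one hdet)
      linear_combination h2 - hdet
    have hc0 : c ≠ 0 := fun h => by rw [h] at hdet; simp at hdet
    have hd0 : d ≠ 0 := A.det_ne_zero
    set e := d * c with he
    have hNe : (e • (A : M₂ S.F)) * σ.toRingHom.mapMatrix (e • (A : M₂ S.F)) *
        σ.toRingHom.mapMatrix (σ.toRingHom.mapMatrix (e • (A : M₂ S.F))) = 1 := by
      have hs : ∀ (x : S.F) (M : M₂ S.F),
          σ.toRingHom.mapMatrix (x • M) = σ x • σ.toRingHom.mapMatrix M := fun x M =>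
        Matrix.ext fun i j => map_mul σ x (M i j)
      rw [hs, hs, ← coe_gGal, ← coe_gGal]
      simp only [Matrix.smul_mul, Matrix.mul_smul, smul_smul]
      refine Eq.trans (congrArg (fun x : S.F => x • N) ?_) hc
      simp only [he, map_mul, hcs]
      linear_combination c * hdet
    obtain ⟨Z, hZ0, hZT, hZ⟩ := exists_commutant_h90 hσ hg (A := e • (A : M₂ S.F)) (by
      rw [Matrix.smul_mul, Matrix.mul_smul, hA]) hNe
    refine ⟨ProjGenLinGroup.mk (GeneralLinearGroup.mkOfDetNeZero Z hZ0),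
      mem_torus_pIncl_mk.mpr ⟨_, hZT, rfl⟩, eq_mul_inv_iff_mul_eq.mpr ?_⟩
    rw [pGal_mk', ← map_mul, mk_eq_mk_iff_smul]
    refine ⟨e, ?_⟩
    rw [Units.val_mul, ← Matrix.smul_mul]
    exact hZ

theorem mem_map_torus_of_fixed (hσ : S.IsGalGen σ) {t : PGL(2, S.K)} {η : PGL(2, S.F)}
    (hη : η ∈ torus (pIncl S t)) (hfix : pGal σ η = η) : η ∈ (torus t).map (pIncl S) := by
  induction t using ProjGenLinGroup.induction_on with | mk g =>
  obtain ⟨A, hA, rfl⟩ := mem_torus_pIncl_mk.mp hη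
  rw [pGal_mk', mk_eq_mk_iff_smul] at hfix
  obtain ⟨μ, hμ⟩ := hfix
  -- `μ σA = A`
  have h3 : μ * σ μ * σ (σ μ) = 1 := by
    have hA1 : (A : M₂ S.F) = (μ * σ μ * σ (σ μ)) • (A : M₂ S.F) := by
      ext i j
      have e : ∀ i j, μ * σ ((A : M₂ S.F) i j) = (A : M₂ S.F) i j := fun i j =>
        congrFun (congrFun hμ i) j
      rw [Matrix.smul_apply, smul_eq_mul]
      conv_lhs => rw [← e, ← e, map_mul, ← e, map_mul, map_mul, gal_three hσ]
      ring
    by_contra h
    refine A.ne_zero (Matrix.ext fun i j => ?_)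
    have := congrFun (congrFun hA1 i) j
    rw [Matrix.smul_apply, smul_eq_mul] at this
    have h0 : (1 - μ * σ μ * σ (σ μ)) * (A : M₂ S.F) i j = 0 := by linear_combination this
    exact ((mul_eq_zero.mp h0).resolve_left (sub_ne_zero.mpr fun h' => h h'.symm)).trans
      (Matrix.zero_apply i j).symm
  obtain ⟨ν, hν0, hν⟩ := exists_eq_div_gal hσ h3
  have hμ0 : μ ≠ 0 := by rintro rfl; simp at h3
  have hdet : ((ν⁻¹) • (A : M₂ S.F)).det ≠ 0 := by
    rw [Matrix.det_smul]
    exact mul_ne_zero (pow_ne_zero _ (inv_ne_zero hν0)) A.det_ne_zero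
  set B := GeneralLinearGroup.mkOfDetNeZero _ hdet
  obtain ⟨b, hb⟩ := exists_gIncl_eq hσ (g := B) (by
    refine Units.ext (Matrix.ext fun i j => ?_)
    show σ (ν⁻¹ * (A : M₂ S.F) i j) = ν⁻¹ * (A : M₂ S.F) i j
    have e : μ * σ ((A : M₂ S.F) i j) = (A : M₂ S.F) i j := congrFun (congrFun hμ i) j
    have hσν : σ ν ≠ 0 := fun h => hν0 (σ.injective (h.trans (map_zero σ).symm))
    rw [map_mul, map_inv₀]
    field_simp
    linear_combination (σ ν) * e - σ ((A : M₂ S.F) i j) * hν)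
  refine ⟨ProjGenLinGroup.mk b, mem_torus_mk.mpr ⟨b, ?_, rfl⟩, ?_⟩
  · apply Matrix.map_injective S.inclKF.injective
    show S.inclKF.toRingHom.mapMatrix _ = S.inclKF.toRingHom.mapMatrix _
    rw [map_mul, map_mul, ← coe_gIncl, ← coe_gIncl, hb,
      show (B : M₂ S.F) = ν⁻¹ • (A : M₂ S.F) from rfl, Matrix.smul_mul, Matrix.mul_smul, hA]
  · rw [pIncl_mk, hb, mk_eq_mk_iff_smul]
    exact ⟨ν, by rw [show (B : M₂ S.F) = ν⁻¹ • (A : M₂ S.F) from rfl, smul_smul,
      mul_inv_cancel₀ hν0, one_smul]⟩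

end FermatAgent.LTG.Classes

end
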